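/-
S56 / FLAT / HOPF block, leaf L4 (row 364, helper11): `hpf_embed` — counting points ⟹ a `K`-embedding
`L → E`.  Statement VERBATIM from `Hopf/Spec.lean` (origin/helper16 a1a1c97), section L4.

The statement only mentions Mathlib objects, so this file imports Mathlib alone.

Proof.  Let `Ω` be a finite extension of `ℚ_p` receiving `E` and `L` compatibly over `K` (the field generated
by the image of a `K`-embedding `L → AlgebraicClosure E`).  Put `G(F) := A →ₐ[O] F`.
`G(L) → G(Ω)` is injective (field hom) and surjective (`hS1`); `G(E) → G(Ω)` is injective; all are finite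
(`hpfe_finite_points`), so by `hcard` the map `G(E) → G(Ω)` is bijective.  Hence every value `g h` of an
`L`-point lands, inside `Ω`, in the image of `E`; the set of such `x : L` is an intermediate field of
`L/ℚ_p` (comap of the field range), so by `hS2` it is everything, and `x ↦ ι_E⁻¹ (ι_L x)` is the embedding.
-/
import Mathlib

set_option autoImplicit false
set_option linter.unusedSectionVars false
set_option linter.unusedVariables false
set_option linter.style.haveILetI false

namespace Fermat.Agent.S56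

open Polynomial

/-- a finite algebra has finitely many points in a field (own copy of L5, prefix `hpfe_`). -/
theorem hpfe_finite_points (O : Type) [CommRing O] (A : Type) [CommRing A] [Algebra O A]
    [Module.Finite O A] (F : Type) [Field F] [Algebra O F] : Finite (A →ₐ[O] F) := by
  classical
  obtain ⟨s, hs⟩ := (Module.Finite.fg_top : (⊤ : Submodule O A).FG)
  have hint : ∀ a : A, ∃ P : O[X], P.Monic ∧ aeval a P = 0 := fun a => by
    obtain ⟨P, hPm, hP⟩ := IsIntegral.of_finite O a
    exact ⟨P, hPm, by rw [aeval_def]; exact hP⟩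
  choose P hPm hP0 using hint
  let T : (↥s) → Set F := fun a => {x | ((P a).map (algebraMap O F)).IsRoot x}
  have hT : ∀ a, (T a).Finite := fun a =>
    Polynomial.finite_setOfPred_isRoot ((hPm a).map (algebraMap O F)).ne_zero
  have hfin : {f : (↥s) → F | ∀ i, f i ∈ T i}.Finite := Set.Finite.pi' hT
  haveI : Finite ↥{f : (↥s) → F | ∀ i, f i ∈ T i} := hfin.to_subtype
  let Φ : (A →ₐ[O] F) → ↥{f : (↥s) → F | ∀ i, f i ∈ T i} := fun f =>
    ⟨fun a => f a, fun a => by
      show ((P a).map (algebraMap O F)).IsRoot (f a)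
      rw [IsRoot.def, eval_map_algebraMap, aeval_algHom_apply, hP0, map_zero]⟩
  refine Finite.of_injective Φ ?_
  intro f g hfg
  have h1 : ∀ a ∈ s, f a = g a := fun a ha => by
    have := congrArg (fun φ : ↥{f : (↥s) → F | ∀ i, f i ∈ T i} => φ.1 ⟨a, ha⟩) hfg
    exact this
  have h2 : f.toLinearMap = g.toLinearMap := by
    apply LinearMap.ext_on_range (v := fun a : ↥s => (a : A))
    · show Submodule.span O (Set.range (Subtype.val : ↥s → A)) = ⊤
      rw [Subtype.range_coe]; exact hs
    · intro a; exact h1 a a.2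
  exact AlgHom.ext fun a => by
    have := congrArg (fun φ : A →ₗ[O] F => φ a) h2
    exact this

section L4

variable (p : ℕ) [Fact p.Prime] (O : Type) [CommRing O] [Algebra O ℚ_[p]]
  (A : Type) [CommRing A] [Algebra O A] [Module.Finite O A]
  (K : Type) [Field K] [Algebra ℚ_[p] K] [FiniteDimensional ℚ_[p] K]
  (L : Type) [Field L] [Algebra ℚ_[p] L] [FiniteDimensional ℚ_[p] L]
  [Algebra K L] [IsScalarTower ℚ_[p] K L] [Algebra O L] [IsScalarTower O ℚ_[p] L]
  (E : Type) [Field E] [Algebra ℚ_[p] E] [FiniteDimensional ℚ_[p] E]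
  [Algebra K E] [IsScalarTower ℚ_[p] K E] [Algebra O E] [IsScalarTower O ℚ_[p] E]

/-- the abstract form: any common finite overfield `Ω` of `E` and `L` (compatible over `K`) will do. -/
theorem hpfe_embed_aux
    (hS1 : ∀ (E' : Type) [Field E'] [Algebra ℚ_[p] E'] [FiniteDimensional ℚ_[p] E']
      [Algebra O E'] [IsScalarTower O ℚ_[p] E'] [Algebra L E'] [IsScalarTower ℚ_[p] L E']
      (f : A →ₐ[O] E'), ∃ g : A →ₐ[O] L, ∀ h : A, f h = algebraMap L E' (g h))
    (hS2 : IntermediateField.adjoin ℚ_[p] {x : L | ∃ (f : A →ₐ[O] L) (h : A), f h = x} = ⊤)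
    (hcard : Nat.card (A →ₐ[O] L) ≤ Nat.card (A →ₐ[O] E))
    (Ω : Type) [Field Ω] [Algebra ℚ_[p] Ω] [FiniteDimensional ℚ_[p] Ω]
    (iE : E →ₐ[ℚ_[p]] Ω) (iL : L →ₐ[ℚ_[p]] Ω)
    (hK : ∀ k : K, iE (algebraMap K E k) = iL (algebraMap K L k)) :
    Nonempty (L →ₐ[K] E) := by
  classical
  letI instOΩ : Algebra O Ω := ((algebraMap ℚ_[p] Ω).comp (algebraMap O ℚ_[p])).toAlgebra
  haveI : IsScalarTower O ℚ_[p] Ω := IsScalarTower.of_algebraMap_eq (fun _ => rfl)
  letI instLΩ : Algebra L Ω := iL.toRingHom.toAlgebra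
  haveI : IsScalarTower ℚ_[p] L Ω :=
    IsScalarTower.of_algebraMap_eq (fun x => (iL.commutes x).symm)
  have hsurj := hS1 Ω
  -- `iL`, `iE` as `O`-algebra homs
  let jL : L →ₐ[O] Ω :=
    { iL.toRingHom with
      commutes' := fun o => by
        show iL (algebraMap O L o) = algebraMap ℚ_[p] Ω (algebraMap O ℚ_[p] o)
        rw [IsScalarTower.algebraMap_apply O ℚ_[p] L, iL.commutes] }
  let jE : E →ₐ[O] Ω :=
    { iE.toRingHom with
      commutes' := fun o => by
        show iE (algebraMap O E o) = algebraMap ℚ_[p] Ω (algebraMap O ℚ_[p] o)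
        rw [IsScalarTower.algebraMap_apply O ℚ_[p] E, iE.commutes] }
  have hjL : ∀ x, jL x = iL x := fun _ => rfl
  have hjE : ∀ x, jE x = iE x := fun _ => rfl
  let cL : (A →ₐ[O] L) → (A →ₐ[O] Ω) := fun g => jL.comp g
  let cE : (A →ₐ[O] E) → (A →ₐ[O] Ω) := fun g => jE.comp g
  have hcL_inj : Function.Injective cL := fun g g' h => AlgHom.ext fun a => by
    have := congrArg (fun φ : A →ₐ[O] Ω => φ a) h
    exact iL.toRingHom.injective this
  have hcE_inj : Function.Injective cE := fun g g' h => AlgHom.ext fun a => by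
    have := congrArg (fun φ : A →ₐ[O] Ω => φ a) h
    exact iE.toRingHom.injective this
  have hcL_surj : Function.Surjective cL := fun f => by
    obtain ⟨g, hg⟩ := hsurj f
    exact ⟨g, AlgHom.ext fun a => (hg a).symm⟩
  haveI : Finite (A →ₐ[O] Ω) := hpfe_finite_points O A Ω
  have hcardΩ : Nat.card (A →ₐ[O] Ω) = Nat.card (A →ₐ[O] L) :=
    (Nat.card_eq_of_bijective cL ⟨hcL_inj, hcL_surj⟩).symm
  have hcE_bij : Function.Bijective cE :=
    hcE_inj.bijective_of_nat_card_le (by rw [hcardΩ]; exact hcard)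
  -- every element of `L` lands in the image of `E`
  have hmem : ∀ x : L, ∃ e : E, iE e = iL x := by
    have hle : IntermediateField.adjoin ℚ_[p] {x : L | ∃ (f : A →ₐ[O] L) (h : A), f h = x}
        ≤ (iE.fieldRange).comap iL := by
      rw [IntermediateField.adjoin_le_iff]
      rintro x ⟨f, h, rfl⟩
      obtain ⟨f', hf'⟩ := hcE_bij.2 (cL f)
      have := congrArg (fun φ : A →ₐ[O] Ω => φ h) hf'
      show iL (f h) ∈ iE.fieldRange
      exact ⟨f' h, this⟩
    rw [hS2] at hle
    intro x
    have hx : x ∈ (iE.fieldRange).comap iL := hle IntermediateField.mem_top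
    obtain ⟨e, he⟩ := hx
    exact ⟨e, he⟩
  choose φ hφ using hmem
  have hinj : Function.Injective iE := iE.toRingHom.injective
  refine ⟨{ toFun := φ, map_one' := ?_, map_mul' := ?_, map_zero' := ?_, map_add' := ?_,
            commutes' := ?_ }⟩
  · apply hinj; rw [hφ, map_one, map_one]
  · intro x y; apply hinj; rw [hφ, map_mul, map_mul, hφ, hφ]
  · apply hinj; rw [hφ, map_zero, map_zero]
  · intro x y; apply hinj; rw [hφ, map_add, map_add, hφ, hφ]
  · intro k; apply hinj; rw [hφ, hK]

theorem hpf_embed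
    (hS1 : ∀ (E' : Type) [Field E'] [Algebra ℚ_[p] E'] [FiniteDimensional ℚ_[p] E']
      [Algebra O E'] [IsScalarTower O ℚ_[p] E'] [Algebra L E'] [IsScalarTower ℚ_[p] L E']
      (f : A →ₐ[O] E'), ∃ g : A →ₐ[O] L, ∀ h : A, f h = algebraMap L E' (g h))
    (hS2 : IntermediateField.adjoin ℚ_[p] {x : L | ∃ (f : A →ₐ[O] L) (h : A), f h = x} = ⊤)
    (hcard : Nat.card (A →ₐ[O] L) ≤ Nat.card (A →ₐ[O] E)) :
    Nonempty (L →ₐ[K] E) := by
  classical
  haveI : FiniteDimensional K L := FiniteDimensional.right ℚ_[p] K L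
  haveI : Algebra.IsAlgebraic K L := Algebra.IsAlgebraic.of_finite K L
  -- a `K`-embedding of `L` into an algebraic closure of `E`
  let ι : L →ₐ[K] AlgebraicClosure E := IsAlgClosed.lift
  let b := Module.finBasis K L
  let S : Set (AlgebraicClosure E) := Set.range (fun i => ι (b i))
  haveI : Finite ↥S := (Set.finite_range _).to_subtype
  let Ω : IntermediateField E (AlgebraicClosure E) := IntermediateField.adjoin E S
  haveI : FiniteDimensional E ↥Ω :=
    IntermediateField.finiteDimensional_adjoin (fun x _ => Algebra.IsIntegral.isIntegral x)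
  haveI : FiniteDimensional ℚ_[p] ↥Ω := FiniteDimensional.trans ℚ_[p] E ↥Ω
  have hιmem : ∀ x : L, ι x ∈ Ω := fun x => by
    rw [← b.sum_repr x, map_sum]
    refine sum_mem fun i _ => ?_
    rw [map_smul, ← IsScalarTower.algebraMap_smul E (b.repr x i) (ι (b i))]
    exact Ω.smul_mem (IntermediateField.subset_adjoin E S ⟨i, rfl⟩)
  let iE : E →ₐ[ℚ_[p]] ↥Ω := IsScalarTower.toAlgHom ℚ_[p] E ↥Ω
  let iL : L →ₐ[ℚ_[p]] ↥Ω :=
    { toFun := fun x => ⟨ι x, hιmem x⟩
      map_one' := Subtype.ext (map_one ι)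
      map_mul' := fun x y => Subtype.ext (map_mul ι x y)
      map_zero' := Subtype.ext (map_zero ι)
      map_add' := fun x y => Subtype.ext (map_add ι x y)
      commutes' := fun c => Subtype.ext (by
        show ι (algebraMap ℚ_[p] L c) = algebraMap ℚ_[p] (AlgebraicClosure E) c
        rw [IsScalarTower.algebraMap_apply ℚ_[p] K L, ι.commutes,
          ← IsScalarTower.algebraMap_apply ℚ_[p] K (AlgebraicClosure E)]) }
  refine hpfe_embed_aux p O A K L E hS1 hS2 hcard ↥Ω iE iL (fun k => Subtype.ext ?_)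
  show algebraMap E (AlgebraicClosure E) (algebraMap K E k) = ι (algebraMap K L k)
  rw [ι.commutes, ← IsScalarTower.algebraMap_apply K E (AlgebraicClosure E)]

end L4

end Fermat.Agent.S56
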