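/-
S56 / FLAT / HOPF block (helper16): abstract `p`-adically filtered commutative rings (Mathlib only).

`HpfFilt C p e` : a decreasing multiplicative filtration `F k` of the commutative ring `C` by ideals,
separated and complete, with `p ∈ F e`, `p y ∈ F (k+e) → y ∈ F k` and `F (k+e) ⊆ p F k`
(think: `C` = convolution ring of linear maps from a finite flat coalgebra to the ring of integers
of a local field with absolute ramification index `e`).

* `hpf_eq_zero_of_pow` (Lemma 0): `y ∈ F a`, `(p-1) a > e`, `(1+y)^p = 1` ⟹ `y = 0`.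
* `hpf_exists_root`    : `z - 1 ∈ F (a+e)`, `(p-1) a > e` ⟹ `∃ w, w - 1 ∈ F a ∧ w^p z = 1`.
-/
import Mathlib

set_option autoImplicit false

namespace Fermat.Agent.S56

/-- A decreasing multiplicative filtration by ideals, `p`-adically normalised (`e = v(p)`),
separated and complete. -/
structure HpfFilt (C : Type*) [CommRing C] (p e : ℕ) where
  F : ℕ → Ideal C
  anti : ∀ i j, i ≤ j → F j ≤ F i
  mul_mem : ∀ i j x y, x ∈ F i → y ∈ F j → x * y ∈ F (i + j)
  sep : ∀ x, (∀ k, x ∈ F k) → x = 0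
  p_mem : (p : C) ∈ F e
  p_div : ∀ k y, (p : C) * y ∈ F (k + e) → y ∈ F k
  p_mul : ∀ k x, x ∈ F (k + e) → ∃ y ∈ F k, x = (p : C) * y
  complete : ∀ s : ℕ → C, (∀ n, s (n + 1) - s n ∈ F n) → ∃ l, ∀ n, l - s n ∈ F n

section

variable {C : Type*} [CommRing C] {p e : ℕ}

theorem hpf_pow_mem (Φ : HpfFilt C p e) {k : ℕ} {y : C} (hy : y ∈ Φ.F k) (n : ℕ) :
    y ^ (n + 1) ∈ Φ.F ((n + 1) * k) := by
  induction n with
  | zero => simpa using hy
  | succ n ih =>
    rw [pow_succ, Nat.succ_mul]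
    exact Φ.mul_mem _ _ _ _ ih hy

/-- `(1+y)^p = 1 + p y + p y² c + y^p`. -/
theorem hpf_one_add_pow (hp : p.Prime) (y : C) :
    ∃ c : C, (1 + y) ^ p = 1 + (p : C) * y + (p : C) * y ^ 2 * c + y ^ p := by
  obtain ⟨n, rfl⟩ : ∃ n, p = n + 2 := ⟨p - 2, by have := hp.two_le; omega⟩
  refine ⟨∑ m ∈ Finset.range n, y ^ m * (((n + 2).choose (m + 2) / (n + 2) : ℕ) : C), ?_⟩
  rw [add_comm 1 y, add_pow, Finset.sum_range_succ, Finset.sum_range_succ',
    Finset.sum_range_succ']
  simp only [one_pow, mul_one, pow_zero, Nat.choose_zero_right, Nat.cast_one, pow_one,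
    Nat.choose_one_right, Nat.choose_self, zero_add]
  have key : ∀ m ∈ Finset.range n,
      y ^ (m + 1 + 1) * (((n + 2).choose (m + 1 + 1) : ℕ) : C) =
        ((n + 2 : ℕ) : C) * y ^ 2 * (y ^ m * (((n + 2).choose (m + 2) / (n + 2) : ℕ) : C)) := by
    intro m hm
    have hm' : m < n := Finset.mem_range.mp hm
    have hdvd : (n + 2) ∣ (n + 2).choose (m + 2) :=
      hp.dvd_choose_self (by omega) (by omega)
    obtain ⟨t, ht⟩ := hdvd
    have h1 : (n + 2).choose (m + 2) / (n + 2) = t := by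
      rw [ht, Nat.mul_div_cancel_left _ (by omega : 0 < n + 2)]
    rw [h1, show m + 1 + 1 = m + 2 from rfl, ht]
    push_cast
    ring
  rw [Finset.sum_congr rfl key, ← Finset.mul_sum]
  push_cast
  ring

/-- **Lemma 0.** -/
theorem hpf_eq_zero_of_pow (hp : p.Prime) (Φ : HpfFilt C p e) {a : ℕ} (ha : e < (p - 1) * a)
    {y : C} (hy : y ∈ Φ.F a) (h : (1 + y) ^ p = 1) : y = 0 := by
  by_contra hy0
  have hex : ∃ k, y ∉ Φ.F k := by
    by_contra hcon
    simp only [not_exists, not_not] at hcon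
    exact hy0 (Φ.sep y hcon)
  classical
  set k₀ := Nat.find hex with hk₀
  have hk₀spec : y ∉ Φ.F k₀ := Nat.find_spec hex
  have hak₀ : a < k₀ := by
    by_contra hle
    rw [not_lt] at hle
    exact hk₀spec (Φ.anti _ _ hle hy)
  obtain ⟨k, hk⟩ : ∃ k, k₀ = k + 1 := ⟨k₀ - 1, by omega⟩
  have hyk : y ∈ Φ.F k := by
    by_contra hcon
    have := Nat.find_min' hex hcon
    omega
  have hka : a ≤ k := by omega
  have hp2 := hp.two_le
  have ha1 : 1 ≤ a := by
    rcases Nat.eq_zero_or_pos a with h0 | h0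
    · rw [h0] at ha; omega
    · exact h0
  obtain ⟨c, hc⟩ := hpf_one_add_pow hp y
  rw [h] at hc
  have hpy : (p : C) * y = -((p : C) * (y * y) * c + y ^ p) := by
    linear_combination -hc
  apply hk₀spec
  rw [hk]
  apply Φ.p_div
  rw [hpy]
  apply Ideal.neg_mem_iff _ |>.mpr
  apply Ideal.add_mem
  · apply Ideal.mul_mem_right
    have := Φ.mul_mem e (k + k) _ _ Φ.p_mem (Φ.mul_mem k k _ _ hyk hyk)
    exact Φ.anti _ _ (by omega) this
  · obtain ⟨n, rfl⟩ : ∃ n, p = n + 1 := ⟨p - 1, by omega⟩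
    have := hpf_pow_mem Φ hyk n
    refine Φ.anti _ _ ?_ this
    have h1 : (n + 1 - 1) * a ≤ n * k := by
      rw [Nat.add_sub_cancel]
      exact Nat.mul_le_mul_left _ hka
    rw [Nat.add_sub_cancel] at ha
    calc k + 1 + e ≤ k + n * a := by omega
      _ ≤ k + n * k := by
        have := Nat.mul_le_mul_left n hka
        omega
      _ = (n + 1) * k := by ring

/-- strengthened completeness: Cauchy with shifted index. -/
theorem hpf_complete_shift (Φ : HpfFilt C p e) (a : ℕ) (s : ℕ → C)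
    (hs : ∀ n, s (n + 1) - s n ∈ Φ.F (a + n)) : ∃ l, ∀ n, l - s n ∈ Φ.F (a + n) := by
  obtain ⟨l, hl⟩ := Φ.complete s (fun n => Φ.anti _ _ (by omega) (hs n))
  refine ⟨l, fun n => ?_⟩
  have htel : ∀ m, s (n + m) - s n ∈ Φ.F (a + n) := by
    intro m
    induction m with
    | zero => simp
    | succ m ih =>
      have h1 : s (n + (m + 1)) - s n = (s (n + m + 1) - s (n + m)) + (s (n + m) - s n) := by
        rw [← add_assoc]; ring
      rw [h1]
      exact Ideal.add_mem _ (Φ.anti _ _ (by omega) (hs (n + m))) ih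
  have h2 : l - s n = (l - s (n + a)) + (s (n + a) - s n) := by ring
  rw [h2]
  exact Ideal.add_mem _ (Φ.anti _ _ (by omega) (hl (n + a))) (htel a)

/-- one step of the successive approximation. -/
theorem hpf_root_step (hp : p.Prime) (Φ : HpfFilt C p e) {a : ℕ} (ha : e < (p - 1) * a)
    (z : C) (n : ℕ) (w : C) (hw1 : w - 1 ∈ Φ.F a) (hw : w ^ p * z - 1 ∈ Φ.F (a + n + e)) :
    ∃ w' : C, w' - 1 ∈ Φ.F a ∧ w' ^ p * z - 1 ∈ Φ.F (a + (n + 1) + e) ∧
      w' - w ∈ Φ.F (a + n) := by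
  have hp2 := hp.two_le
  have ha1 : 1 ≤ a := by
    rcases Nat.eq_zero_or_pos a with h0 | h0
    · rw [h0] at ha; omega
    · exact h0
  obtain ⟨j, hj, hdj⟩ := Φ.p_mul (a + n) _ hw
  have hwj : w * j ∈ Φ.F (a + n) := Ideal.mul_mem_left _ _ hj
  refine ⟨w * (1 + -j), ?_, ?_, ?_⟩
  · have : w * (1 + -j) - 1 = (w - 1) - w * j := by ring
    rw [this]
    exact Ideal.sub_mem _ hw1 (Φ.anti _ _ (by omega) hwj)
  · obtain ⟨c, hc⟩ := hpf_one_add_pow hp (-j)
    have hd' : w ^ p * z = 1 + (p : C) * j := by linear_combination hdj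
    have hnj : -j ∈ Φ.F (a + n) := (Ideal.neg_mem_iff _).mpr hj
    have hid : (w * (1 + -j)) ^ p * z - 1 =
        -((p : C) * ((p : C) * (j * j))) +
          (1 + (p : C) * j) * ((p : C) * (j * j) * c + (-j) ^ p) := by
      calc (w * (1 + -j)) ^ p * z - 1 = (w ^ p * z) * (1 + -j) ^ p - 1 := by
            rw [mul_pow]; ring
        _ = (1 + (p : C) * j) * (1 + (p : C) * (-j) + (p : C) * (-j) ^ 2 * c + (-j) ^ p) - 1 := by
          rw [hc, hd']
        _ = _ := by ring
    rw [hid]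
    have hpjj : (p : C) * (j * j) ∈ Φ.F (a + (n + 1) + e) := by
      have := Φ.mul_mem e (a + n + (a + n)) _ _ Φ.p_mem (Φ.mul_mem _ _ _ _ hj hj)
      exact Φ.anti _ _ (by omega) this
    apply Ideal.add_mem
    · exact (Ideal.neg_mem_iff _).mpr (Ideal.mul_mem_left _ _ hpjj)
    · apply Ideal.mul_mem_left
      apply Ideal.add_mem
      · exact Ideal.mul_mem_right _ _ hpjj
      · obtain ⟨m, rfl⟩ : ∃ m, p = m + 1 := ⟨p - 1, by omega⟩
        have := hpf_pow_mem Φ hnj m
        refine Φ.anti _ _ ?_ this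
        rw [Nat.add_sub_cancel] at ha
        have h1 : m * a ≤ m * (a + n) := Nat.mul_le_mul_left _ (by omega)
        calc a + (n + 1) + e ≤ (a + n) + m * a := by omega
          _ ≤ (a + n) + m * (a + n) := by omega
          _ = (m + 1) * (a + n) := by ring
  · have : w * (1 + -j) - w = -(w * j) := by ring
    rw [this]
    exact (Ideal.neg_mem_iff _).mpr hwj

/-- **Root lemma.** -/
theorem hpf_exists_root (hp : p.Prime) (Φ : HpfFilt C p e) {a : ℕ} (ha : e < (p - 1) * a)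
    {z : C} (hz : z - 1 ∈ Φ.F (a + e)) : ∃ w : C, w - 1 ∈ Φ.F a ∧ w ^ p * z = 1 := by
  classical
  let P : ℕ → C → Prop := fun n w => w - 1 ∈ Φ.F a ∧ w ^ p * z - 1 ∈ Φ.F (a + n + e)
  have hstep : ∀ n (w : {w : C // P n w}), ∃ w' : {w : C // P (n + 1) w},
      (w' : C) - (w : C) ∈ Φ.F (a + n) := by
    rintro n ⟨w, hw1, hw⟩
    obtain ⟨w', h1, h2, h3⟩ := hpf_root_step hp Φ ha z n w hw1 hw
    exact ⟨⟨w', h1, h2⟩, h3⟩
  have h0 : P 0 1 := by
    refine ⟨by simp, ?_⟩
    simpa using hz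
  let seq : (n : ℕ) → {w : C // P n w} := fun n =>
    Nat.rec (motive := fun n => {w : C // P n w}) ⟨1, h0⟩ (fun n w => (hstep n w).choose) n
  have hseq : ∀ n, ((seq (n + 1) : {w : C // P (n + 1) w}) : C) - (seq n : C) ∈ Φ.F (a + n) :=
    fun n => (hstep n (seq n)).choose_spec
  obtain ⟨l, hl⟩ := hpf_complete_shift Φ a (fun n => (seq n : C)) hseq
  refine ⟨l, ?_, ?_⟩
  · have := hl 0
    simpa [seq] using this
  · have hzero : l ^ p * z - 1 = 0 := by
      apply Φ.sep
      intro k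
      have h1 : l ^ p * z - 1 = (l ^ p - (seq k : C) ^ p) * z + ((seq k : C) ^ p * z - 1) := by ring
      rw [h1]
      apply Ideal.add_mem
      · apply Ideal.mul_mem_right
        have hd : l - (seq k : C) ∣ l ^ p - (seq k : C) ^ p := sub_dvd_pow_sub_pow _ _ _
        exact Φ.anti _ _ (by omega) (Ideal.mem_of_dvd _ hd (hl k))
      · exact Φ.anti _ _ (by omega) (seq k).2.2
    linear_combination hzero

end

end Fermat.Agent.S56
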