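/-
S56 / FLAT / HOPF block (helper16): DEFINITIONS (no sorry).

Base ring `O` (in the application `GaloisRep.ratLocalizedAt p ⊆ ℚ`) with `[Algebra O ℚ_[p]]` landing in
`ℤ_[p]` (`HpfIntegral p O`).  Every local field `E` (finite over `ℚ_[p]`) that occurs carries
`[Algebra O E] [IsScalarTower O ℚ_[p] E]`; its ring of integers `lfInt p E` gets the induced
`O`-algebra structure `hpfIntAlg` (a def, used as a local instance).
-/
import Fermat.Agent.S56.Ram.Defs
import Fermat.Agent.S56.Hopf.Filt
import Fermat.Agent.S55.LocalRing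

set_option autoImplicit false

namespace Fermat.Agent.S56

open Fermat.Agent.S55 IsLocalRing

/-- `O → ℚ_[p]` lands in the `p`-adic integers. -/
class HpfIntegral (p : ℕ) [Fact p.Prime] (O : Type) [CommRing O] [Algebra O ℚ_[p]] : Prop where
  norm_le_one : ∀ o : O, ‖algebraMap O ℚ_[p] o‖ ≤ 1

section

variable (p : ℕ) [Fact p.Prime] (O : Type) [CommRing O] [Algebra O ℚ_[p]] [HpfIntegral p O]
  (E : Type) [Field E] [Algebra ℚ_[p] E] [FiniteDimensional ℚ_[p] E]
  [Algebra O E] [IsScalarTower O ℚ_[p] E]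

theorem hpf_algebraMap_mem (o : O) : algebraMap O E o ∈ lfInt p E := by
  rw [IsScalarTower.algebraMap_apply O ℚ_[p] E]
  exact lrt_algebraMap_mem_lfInt p E (HpfIntegral.norm_le_one o)

/-- `O → 𝒪_E`. -/
noncomputable def hpfIntMap : O →+* ↥(lfInt p E) :=
  (algebraMap O E).codRestrict (lfInt p E).toSubring (hpf_algebraMap_mem p O E)

/-- `𝒪_E` as an `O`-algebra (a def; use as a local instance). -/
@[instance_reducible]
noncomputable def hpfIntAlg : Algebra O ↥(lfInt p E) := (hpfIntMap p O E).toAlgebra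

attribute [local instance] hpfIntAlg

theorem hpf_isScalarTower_int : IsScalarTower O ↥(lfInt p E) E :=
  IsScalarTower.of_algebraMap_eq (fun _ => rfl)

theorem hpf_coe_algebraMap (o : O) :
    ((algebraMap O ↥(lfInt p E) o : ↥(lfInt p E)) : E) = algebraMap O E o := rfl

/-- the absolute ramification index `e_E = v_E(p)`. -/
noncomputable abbrev hpfE : ℕ := lfRamIdx p ℚ_[p] E

end

end Fermat.Agent.S56
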