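/-
S56 / FLAT / HOPF block, leaf L3 (helper4): the ring hom attached to an approximate root.
Statement `hpf_eta` VERBATIM from `Hopf/Spec.lean` (helper16 a1a1c97), section L3.
Helper names are prefixed `hpfeta_`.  Pure local-field / polynomial algebra.
-/
import Fermat.Agent.S56.Hopf.Defs

set_option autoImplicit false
set_option linter.unusedSectionVars false
set_option linter.unusedVariables false

namespace Fermat.Agent.S56

open Fermat.Agent.S55 IsLocalRing Polynomial

section L3aux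

variable (p : ℕ) [Fact p.Prime]
  (K : Type) [Field K] [Algebra ℚ_[p] K] [FiniteDimensional ℚ_[p] K]
  (M : Type) [Field M] [Algebra ℚ_[p] M] [FiniteDimensional ℚ_[p] M]
  [Algebra K M] [IsScalarTower ℚ_[p] K M]

/-- evaluation of an integral polynomial at an integer of `M`, computed in `M`. -/
theorem hpfeta_coe_eval₂ (m : M) (hm : m ∈ lfInt p M) (G : (↥(lfInt p K))[X]) :
    ((eval₂ (algebraMap ↥(lfInt p K) ↥(lfInt p M)) (⟨m, hm⟩ : ↥(lfInt p M)) G : ↥(lfInt p M)) : M)
      = aeval m (G.map (algebraMap ↥(lfInt p K) K)) := by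
  have h1 := Polynomial.hom_eval₂ G (algebraMap ↥(lfInt p K) ↥(lfInt p M))
    ((lfInt p M).subtype) (⟨m, hm⟩ : ↥(lfInt p M))
  have h2 : ((lfInt p M).subtype).comp (algebraMap ↥(lfInt p K) ↥(lfInt p M))
      = (algebraMap K M).comp (algebraMap ↥(lfInt p K) K) := by
    ext z
    rfl
  rw [aeval_def, eval₂_map, ← h2]
  exact h1

end L3aux

/-! ## L3 : the ring hom attached to an approximate root -/

section L3

variable (p : ℕ) [Fact p.Prime]
  (K : Type) [Field K] [Algebra ℚ_[p] K] [FiniteDimensional ℚ_[p] K]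
  (L : Type) [Field L] [Algebra ℚ_[p] L] [FiniteDimensional ℚ_[p] L]
  [Algebra K L] [IsScalarTower ℚ_[p] K L]
  (E : Type) [Field E] [Algebra ℚ_[p] E] [FiniteDimensional ℚ_[p] E]
  [Algebra K E] [IsScalarTower ℚ_[p] K E]

theorem hpf_eta (x : L) (hx : RmGen p K L x) (y : E) (hy : y ∈ lfInt p E) (N : ℕ)
    (hne : aeval y (minpoly K x) ≠ 0)
    (hN : (N : ℤ) ≤ lfOrd p E (aeval y (minpoly K x))) :
    Nonempty (↥(lfInt p L) →+* ↥(lfInt p E) ⧸ maximalIdeal ↥(lfInt p E) ^ N) := by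
  -- the two evaluation maps out of `𝒪_K[X]`
  set φ : (↥(lfInt p K))[X] →+* ↥(lfInt p L) :=
    eval₂RingHom (algebraMap ↥(lfInt p K) ↥(lfInt p L)) (⟨x, hx.1⟩ : ↥(lfInt p L)) with hφ
  set ψ : (↥(lfInt p K))[X] →+* ↥(lfInt p E) ⧸ maximalIdeal ↥(lfInt p E) ^ N :=
    (Ideal.Quotient.mk (maximalIdeal ↥(lfInt p E) ^ N)).comp
      (eval₂RingHom (algebraMap ↥(lfInt p K) ↥(lfInt p E)) (⟨y, hy⟩ : ↥(lfInt p E))) with hψ
  have hφ_apply : ∀ G : (↥(lfInt p K))[X], ((φ G : ↥(lfInt p L)) : L)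
      = aeval x (G.map (algebraMap ↥(lfInt p K) K)) :=
    fun G => hpfeta_coe_eval₂ p K L x hx.1 G
  -- `φ` is surjective because `x` generates `𝒪_L`
  have hφsurj : Function.Surjective φ := by
    intro z
    obtain ⟨g, hg, hgz⟩ := hx.2 (z : L) z.2
    have hlift : g ∈ Polynomial.lifts (algebraMap ↥(lfInt p K) K) := by
      rw [Polynomial.lifts_iff_coeff_lifts]
      intro n
      exact ⟨⟨_, hg n⟩, rfl⟩
    obtain ⟨G, hG⟩ := (Polynomial.mem_lifts g).mp hlift
    refine ⟨G, Subtype.ext ?_⟩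
    rw [hφ_apply, hG, hgz]
  -- the kernel of `φ` dies in the quotient
  have hker : RingHom.ker φ ≤ RingHom.ker ψ := by
    intro G hG
    rw [RingHom.mem_ker] at hG ⊢
    have hxint : IsIntegral ↥(lfInt p K) x := (mem_lfInt_iff_isIntegral p K L x).mp hx.1
    have h0 : aeval x G = 0 := by
      have h1 := hφ_apply G
      rw [hG] at h1
      rw [← aeval_map_algebraMap K x G, ← h1]
      rfl
    obtain ⟨H, hH⟩ := minpoly.isIntegrallyClosed_dvd hxint h0
    have hmin : minpoly K x = (minpoly ↥(lfInt p K) x).map (algebraMap ↥(lfInt p K) K) :=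
      minpoly.isIntegrallyClosed_eq_field_fractions' K hxint
    set a : ↥(lfInt p E) :=
      eval₂ (algebraMap ↥(lfInt p K) ↥(lfInt p E)) (⟨y, hy⟩ : ↥(lfInt p E))
        (minpoly ↥(lfInt p K) x) with ha
    have ha_coe : (a : E) = aeval y (minpoly K x) := by
      rw [hmin]
      exact hpfeta_coe_eval₂ p K E y hy _
    have ha0 : a ≠ 0 := by
      intro h
      apply hne
      rw [← ha_coe, h]
      rfl
    have hamem : a ∈ maximalIdeal ↥(lfInt p E) ^ N := by
      rw [mem_maximalIdeal_pow_lfInt_iff p E a ha0 N, ha_coe]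
      exact hN
    rw [hψ, RingHom.comp_apply, Ideal.Quotient.eq_zero_iff_mem, coe_eval₂RingHom, hH, eval₂_mul]
    exact Ideal.mul_mem_right _ _ hamem
  exact ⟨RingHom.liftOfSurjective φ hφsurj ⟨ψ, hker⟩⟩

end L3

end Fermat.Agent.S56
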