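import Fermat.Agent.S56.Hopf.CardLe
import Fermat.Agent.S56.Hopf.Eta
import Fermat.Agent.S56.Hopf.Embed

set_option autoImplicit false

namespace Fermat.Agent.S56

open Fermat.Agent.S55 IsLocalRing Polynomial

section Top

variable (p : ℕ) [Fact p.Prime] (O : Type) [CommRing O] [Algebra O ℚ_[p]] [HpfIntegral p O]
  (A : Type) [CommRing A] [Bialgebra O A] [Module.Finite O A] [Module.Projective O A]
  [Coalgebra.IsCocomm O A]
  (L : Type) [Field L] [Algebra ℚ_[p] L] [FiniteDimensional ℚ_[p] L]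
  [Algebra O L] [IsScalarTower O ℚ_[p] L]

theorem hpf_top
    (hS1 : ∀ (E' : Type) [Field E'] [Algebra ℚ_[p] E'] [FiniteDimensional ℚ_[p] E']
      [Algebra O E'] [IsScalarTower O ℚ_[p] E'] [Algebra L E'] [IsScalarTower ℚ_[p] L E']
      (f : A →ₐ[O] E'), ∃ g : A →ₐ[O] L, ∀ h : A, f h = algebraMap L E' (g h))
    (hS2 : IntermediateField.adjoin ℚ_[p] {x : L | ∃ (f : A →ₐ[O] L) (h : A), f h = x} = ⊤)
    (hS3 : ∀ f : WithConv (A →ₐ[O] L), f ^ p = 1) :
    ∀ (K' : Type) [Field K'] [Algebra ℚ_[p] K'] [FiniteDimensional ℚ_[p] K'] [Algebra K' L]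
      [IsScalarTower ℚ_[p] K' L], LfUnramified p ℚ_[p] K' →
      ∀ m : ℚ, (p : ℚ) / ((p : ℚ) - 1) < m → RmPM p K' L m := by
  intro K' _ _ _ _ _ hur m hm x hx E _ _ _ _ _ y hy hne hord
  let _ : Algebra O E := ((algebraMap ℚ_[p] E).comp (algebraMap O ℚ_[p])).toAlgebra
  have _ : IsScalarTower O ℚ_[p] E := IsScalarTower.of_algebraMap_eq (fun _ => rfl)
  have hp2 : 2 ≤ p := (Fact.out : p.Prime).two_le
  have heK : lfRamIdx p K' E = lfRamIdx p ℚ_[p] E := by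
    have h1 := lfRamIdx_tower p ℚ_[p] K' E
    have h2 : lfRamIdx p ℚ_[p] K' = 1 := hur
    rw [h2, one_mul] at h1
    exact h1.symm
  set e := lfRamIdx p ℚ_[p] E with he
  have hepos : 0 < e := lfRamIdx_pos p ℚ_[p] E
  set d := e / (p - 1) with hd
  have ha : e < (p - 1) * (d + 1) := by
    have := Nat.lt_mul_div_succ e (show 0 < p - 1 by omega)
    simpa [hd] using this
  have hN : ((d + 1 + e : ℕ) : ℤ) ≤ lfOrd p E (aeval y (minpoly K' x)) := by
    rw [heK] at hord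
    have h1 : ((d : ℕ) : ℚ) ≤ (e : ℚ) / ((p - 1 : ℕ) : ℚ) := Nat.cast_div_le
    have hp1 : ((p - 1 : ℕ) : ℚ) = (p : ℚ) - 1 := by
      rw [Nat.cast_sub (by omega)]; simp
    rw [hp1] at h1
    have hp1pos : (0 : ℚ) < (p : ℚ) - 1 := by
      have : (2 : ℚ) ≤ (p : ℚ) := by exact_mod_cast hp2
      linarith
    have hepos' : (0 : ℚ) < (e : ℚ) := by exact_mod_cast hepos
    have h2 : (p : ℚ) / ((p : ℚ) - 1) * (e : ℚ) < m * (e : ℚ) :=
      mul_lt_mul_of_pos_right hm hepos'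
    have h3 : (p : ℚ) / ((p : ℚ) - 1) * (e : ℚ) = (e : ℚ) + (e : ℚ) / ((p : ℚ) - 1) := by
      field_simp
      ring
    have h4 : ((d + e : ℕ) : ℚ) < ((lfOrd p E (aeval y (minpoly K' x)) : ℤ) : ℚ) := by
      push_cast
      linarith
    have h5 : ((d + e : ℕ) : ℤ) < lfOrd p E (aeval y (minpoly K' x)) := by
      exact_mod_cast h4
    push_cast at h5 ⊢
    omega
  obtain ⟨η⟩ := hpf_eta p K' L E x hx y hy (d + 1 + e) hne hN
  have hcard := hpf_card_le p O A L E hS3 (d + 1) ha η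
  exact hpf_embed p O A K' L E hS1 hS2 hcard

end Top

end Fermat.Agent.S56
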