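/-
S56 / FLAT / HOPF block (helper16): the INPUT bridge.
`Ω` an algebraic closure of `ℚ_p` (e.g. `PadicAlgCl p`), `H` a finite flat cocommutative bialgebra over
`Λ` (→ `ℤ_p`) whose `Ω`-points are killed by `p`.  `hpfSplitField p Λ H Ω ⊆ Ω` is the field generated
by the values of the `Ω`-points: it is finite Galois over `ℚ_p` and satisfies the hypotheses
(S1)(S2)(S3) of `hpf_top`, hence Fontaine's `(P_m)`: `hpf_top_splitField` = hypothesis `hPM` of
`rm_top` for `L = hpfSplitField`.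
-/
import Fermat.Agent.S56.Hopf.Top

set_option autoImplicit false
set_option linter.unusedSectionVars false

namespace Fermat.Agent.S56

open Fermat.Agent.S55 IsLocalRing

section Input

variable (p : ℕ) [Fact p.Prime] (Λ : Type) [CommRing Λ] [Algebra Λ ℚ_[p]]
  (H : Type) [CommRing H] [Algebra Λ H] [Module.Finite Λ H]
  (Ω : Type) [Field Ω] [Algebra ℚ_[p] Ω] [IsAlgClosed Ω] [Algebra.IsAlgebraic ℚ_[p] Ω]
  [Algebra Λ Ω] [IsScalarTower Λ ℚ_[p] Ω]

/-- the field generated over `ℚ_p` by the values of the `Ω`-points of `H`. -/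
noncomputable def hpfSplitField : IntermediateField ℚ_[p] Ω :=
  IntermediateField.adjoin ℚ_[p] {y : Ω | ∃ (x : H →ₐ[Λ] Ω) (h : H), x h = y}

theorem hpf_point_mem_splitField (x : H →ₐ[Λ] Ω) (h : H) : x h ∈ hpfSplitField p Λ H Ω :=
  IntermediateField.subset_adjoin _ _ ⟨x, h, rfl⟩

theorem hpf_algebraMap_mem_intermediate (K : IntermediateField ℚ_[p] Ω) (c : Λ) :
    algebraMap Λ Ω c ∈ K := by
  rw [IsScalarTower.algebraMap_apply Λ ℚ_[p] Ω]
  exact K.algebraMap_mem _

instance hpfSplitField_finiteDimensional : FiniteDimensional ℚ_[p] ↥(hpfSplitField p Λ H Ω) := by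
  classical
  obtain ⟨n, g, hg⟩ := Module.Finite.exists_fin (R := Λ) (M := H)
  have hfin : Finite (H →ₐ[Λ] Ω) := hpf_finite_points Λ H Ω
  set S : Set Ω := Set.range (fun xi : (H →ₐ[Λ] Ω) × Fin n => xi.1 (g xi.2)) with hS
  have hSfin : Finite ↑S := by
    rw [hS]
    exact Set.finite_range _
  have heq : hpfSplitField p Λ H Ω = IntermediateField.adjoin ℚ_[p] S := by
    apply le_antisymm
    · apply IntermediateField.adjoin_le_iff.mpr
      rintro _ ⟨x, h, rfl⟩
      have hmem : h ∈ Submodule.span Λ (Set.range g) := by rw [hg]; trivial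
      induction hmem using Submodule.span_induction with
      | mem a ha =>
        obtain ⟨i, rfl⟩ := ha
        exact IntermediateField.subset_adjoin _ _ ⟨(x, i), rfl⟩
      | zero => rw [map_zero]; exact zero_mem _
      | add a b _ _ ha hb => rw [map_add]; exact add_mem ha hb
      | smul c a _ ha =>
        rw [map_smul, Algebra.smul_def]
        exact mul_mem (hpf_algebraMap_mem_intermediate p Λ Ω _ c) ha
    · apply IntermediateField.adjoin_le_iff.mpr
      rintro _ ⟨⟨x, i⟩, rfl⟩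
      exact hpf_point_mem_splitField p Λ H Ω x (g i)
  rw [heq]
  exact IntermediateField.finiteDimensional_adjoin
    (fun y _ => (Algebra.IsAlgebraic.isAlgebraic (R := ℚ_[p]) y).isIntegral)

instance hpfSplitField_isGalois : IsGalois ℚ_[p] ↥(hpfSplitField p Λ H Ω) := by
  have hcl : IsAlgClosure ℚ_[p] Ω := ⟨inferInstance, inferInstance⟩
  have hnormal : Normal ℚ_[p] ↥(hpfSplitField p Λ H Ω) := by
    rw [IntermediateField.normal_iff_forall_map_le]
    intro σ
    unfold hpfSplitField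
    rw [IntermediateField.adjoin_map]
    apply IntermediateField.adjoin.mono
    rintro _ ⟨_, ⟨x, h, rfl⟩, rfl⟩
    exact ⟨(σ.restrictScalars Λ).comp x, h, rfl⟩
  have hsep : Algebra.IsSeparable ℚ_[p] ↥(hpfSplitField p Λ H Ω) :=
    Algebra.IsAlgebraic.isSeparable_of_perfectField
  exact IsGalois.mk

end Input

section Top

variable (p : ℕ) [Fact p.Prime] (Λ : Type) [CommRing Λ] [Algebra Λ ℚ_[p]] [HpfIntegral p Λ]
  (H : Type) [CommRing H] [Bialgebra Λ H] [Module.Finite Λ H] [Module.Projective Λ H]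
  [Coalgebra.IsCocomm Λ H]
  (Ω : Type) [Field Ω] [Algebra ℚ_[p] Ω] [IsAlgClosed Ω] [Algebra.IsAlgebraic ℚ_[p] Ω]
  [Algebra Λ Ω] [IsScalarTower Λ ℚ_[p] Ω]

/-- an `Ω`-point, viewed as a point of the split field. -/
noncomputable def hpfPtSplit (x : H →ₐ[Λ] Ω) : H →ₐ[Λ] ↥(hpfSplitField p Λ H Ω) where
  toFun h := ⟨x h, hpf_point_mem_splitField p Λ H Ω x h⟩
  map_one' := Subtype.ext (map_one x)
  map_mul' a b := Subtype.ext (map_mul x a b)
  map_zero' := Subtype.ext (map_zero x)
  map_add' a b := Subtype.ext (map_add x a b)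
  commutes' c := Subtype.ext (x.commutes c)

/-- the inclusion of the split field as a `Λ`-algebra hom. -/
noncomputable def hpfSplitVal : ↥(hpfSplitField p Λ H Ω) →ₐ[Λ] Ω :=
  (hpfSplitField p Λ H Ω).val.restrictScalars Λ

theorem hpfSplitVal_apply (y : ↥(hpfSplitField p Λ H Ω)) : hpfSplitVal p Λ H Ω y = (y : Ω) := rfl

/-- post-composition with the inclusion, as a monoid hom on points. -/
noncomputable def hpfSplitPost :
    WithConv (H →ₐ[Λ] ↥(hpfSplitField p Λ H Ω)) →* WithConv (H →ₐ[Λ] Ω) where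
  toFun f := WithConv.toConv ((hpfSplitVal p Λ H Ω).comp f.ofConv)
  map_one' := by
    apply WithConv.ext
    ext h
    simp
  map_mul' f g := by
    apply WithConv.ext
    exact AlgHom.comp_convMul_distrib (hpfSplitVal p Λ H Ω) f g

theorem hpfSplitPost_injective : Function.Injective (hpfSplitPost p Λ H Ω) := by
  intro f g hfg
  apply WithConv.ext
  ext h
  have := congrArg (fun φ : WithConv (H →ₐ[Λ] Ω) => φ.ofConv h) hfg
  exact this

/-- **Fontaine's `(P_m)` for the split field** = hypothesis `hPM` of `rm_top`. -/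
theorem hpf_top_splitField (hkill : ∀ x : WithConv (H →ₐ[Λ] Ω), x ^ p = 1) :
    ∀ (K' : Type) [Field K'] [Algebra ℚ_[p] K'] [FiniteDimensional ℚ_[p] K']
      [Algebra K' ↥(hpfSplitField p Λ H Ω)] [IsScalarTower ℚ_[p] K' ↥(hpfSplitField p Λ H Ω)],
      LfUnramified p ℚ_[p] K' →
      ∀ m : ℚ, (p : ℚ) / ((p : ℚ) - 1) < m → RmPM p K' ↥(hpfSplitField p Λ H Ω) m := by
  apply hpf_top p Λ H ↥(hpfSplitField p Λ H Ω)
  · -- (S1)
    intro E' _ _ _ _ _ _ _ f
    have hfd : FiniteDimensional ↥(hpfSplitField p Λ H Ω) E' :=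
      FiniteDimensional.right ℚ_[p] _ E'
    let σ : E' →ₐ[↥(hpfSplitField p Λ H Ω)] Ω := IsAlgClosed.lift
    have hσ : ∀ c : Λ, σ (algebraMap Λ E' c) = algebraMap Λ Ω c := by
      intro c
      rw [IsScalarTower.algebraMap_apply Λ ℚ_[p] E',
        IsScalarTower.algebraMap_apply ℚ_[p] ↥(hpfSplitField p Λ H Ω) E', σ.commutes,
        ← IsScalarTower.algebraMap_apply ℚ_[p] ↥(hpfSplitField p Λ H Ω) Ω,
        ← IsScalarTower.algebraMap_apply Λ ℚ_[p] Ω]
    let σ' : E' →ₐ[Λ] Ω := { σ.toRingHom with commutes' := hσ }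
    refine ⟨hpfPtSplit p Λ H Ω (σ'.comp f), fun h => ?_⟩
    apply σ.injective
    change σ (f h) = σ (algebraMap ↥(hpfSplitField p Λ H Ω) E'
      (hpfPtSplit p Λ H Ω (σ'.comp f) h))
    rw [σ.commutes]
    rfl
  · -- (S2)
    apply IntermediateField.lift_injective
    rw [IntermediateField.lift_adjoin, IntermediateField.lift_top]
    unfold hpfSplitField
    congr 1
    ext y
    constructor
    · rintro ⟨_, ⟨f, h, rfl⟩, rfl⟩
      exact ⟨(hpfSplitVal p Λ H Ω).comp f, h, rfl⟩
    · rintro ⟨x, h, rfl⟩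
      exact ⟨hpfPtSplit p Λ H Ω x h, ⟨hpfPtSplit p Λ H Ω x, h, rfl⟩, rfl⟩
  · -- (S3)
    intro f
    apply hpfSplitPost_injective p Λ H Ω
    rw [map_pow, map_one]
    exact hkill _

end Top

end Fermat.Agent.S56
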