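/-
S56 / FLAT / HOPF block (helper16): the Prelude's base ring `GaloisRep.ratLocalizedAt p = ℤ_(p) ⊆ ℚ`
is a local ring mapping into `ℤ_p`; finite flat modules over it are projective; hence
`hpf_top_prelude`: Fontaine's `(P_m)`, `m > p/(p-1)`, for the field generated by the `PadicAlgCl p`-points
of a finite flat cocommutative Hopf algebra over `ℤ_(p)` whose points are killed by `p`.
-/
import Fermat.Prelude.Def_GaloisRep_Flat
import Fermat.Agent.S56.Hopf.Input

set_option autoImplicit false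
set_option linter.unusedSectionVars false

namespace Fermat.Agent.S56

open Fermat.Agent.S55 IsLocalRing

section Rat

variable (p : ℕ) [Fact p.Prime]

theorem hpf_mem_ratLocalizedAt_iff (q : ℚ) : q ∈ GaloisRep.ratLocalizedAt p ↔ ¬ p ∣ q.den := by
  have hp : p.Prime := Fact.out
  change q.den.Coprime p ↔ _
  rw [Nat.coprime_comm, hp.coprime_iff_not_dvd]

instance hpf_integral_ratLocalizedAt : HpfIntegral p ↥(GaloisRep.ratLocalizedAt p) where
  norm_le_one o := by
    have h : ¬ p ∣ (o : ℚ).den := (hpf_mem_ratLocalizedAt_iff p _).mp o.2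
    have := Padic.norm_rat_le_one (p := p) h
    exact this

theorem hpf_isUnit_ratLocalizedAt (a : ↥(GaloisRep.ratLocalizedAt p)) (h : ¬ (p : ℤ) ∣ (a : ℚ).num) :
    IsUnit a := by
  have hp : p.Prime := Fact.out
  have hnum : (a : ℚ).num ≠ 0 := by
    intro h0
    rw [h0] at h
    exact h (dvd_zero _)
  have ha0 : (a : ℚ) ≠ 0 := by
    intro h0
    exact hnum (by rw [h0]; rfl)
  have hinv : (a : ℚ)⁻¹ ∈ GaloisRep.ratLocalizedAt p := by
    rw [hpf_mem_ratLocalizedAt_iff, Rat.den_inv, if_neg hnum]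
    intro hdvd
    exact h (Int.natCast_dvd.mpr hdvd)
  refine ⟨⟨a, ⟨(a : ℚ)⁻¹, hinv⟩, Subtype.ext ?_, Subtype.ext ?_⟩, rfl⟩
  · exact mul_inv_cancel₀ ha0
  · exact inv_mul_cancel₀ ha0

instance hpf_isLocalRing_ratLocalizedAt : IsLocalRing ↥(GaloisRep.ratLocalizedAt p) := by
  have hp : p.Prime := Fact.out
  apply IsLocalRing.of_isUnit_or_isUnit_one_sub_self
  intro a
  by_cases h : (p : ℤ) ∣ (a : ℚ).num
  · right
    apply hpf_isUnit_ratLocalizedAt
    intro h'
    have hden : ¬ p ∣ (a : ℚ).den := (hpf_mem_ratLocalizedAt_iff p _).mp a.2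
    have hden' : ¬ p ∣ ((1 - a : ↥(GaloisRep.ratLocalizedAt p)) : ℚ).den :=
      (hpf_mem_ratLocalizedAt_iff p _).mp (1 - a).2
    set b : ℚ := ((1 - a : ↥(GaloisRep.ratLocalizedAt p)) : ℚ) with hb
    have hb' : b = 1 - (a : ℚ) := rfl
    -- b.num * a.den = (a.den - a.num) * b.den
    have key : (b.num : ℚ) * ((a : ℚ).den : ℚ) =
        (((a : ℚ).den : ℚ) - ((a : ℚ).num : ℚ)) * (b.den : ℚ) := by
      have h1 : (b.num : ℚ) = b * (b.den : ℚ) := (Rat.mul_den_eq_num b).symm
      have h2 : ((a : ℚ).num : ℚ) = (a : ℚ) * ((a : ℚ).den : ℚ) := (Rat.mul_den_eq_num _).symm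
      rw [h1, h2, hb']
      ring
    have key' : b.num * ((a : ℚ).den : ℤ) = (((a : ℚ).den : ℤ) - (a : ℚ).num) * (b.den : ℤ) := by
      exact_mod_cast key
    have h3 : (p : ℤ) ∣ (((a : ℚ).den : ℤ) - (a : ℚ).num) * (b.den : ℤ) := by
      rw [← key']
      exact Dvd.dvd.mul_right h' _
    have hpz : Prime (p : ℤ) := Nat.prime_iff_prime_int.mp hp
    rcases hpz.dvd_or_dvd h3 with h4 | h4
    · have h5 : (p : ℤ) ∣ ((a : ℚ).den : ℤ) := by
        have := dvd_add h4 h
        simpa using this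
      exact hden (Int.natCast_dvd_natCast.mp h5)
    · exact hden' (Int.natCast_dvd_natCast.mp h4)
  · left
    exact hpf_isUnit_ratLocalizedAt p a h

/-- finite flat modules over `ℤ_(p)` are projective. -/
theorem hpf_projective_of_flat (H : Type) [AddCommGroup H] [Module ↥(GaloisRep.ratLocalizedAt p) H]
    [Module.Finite ↥(GaloisRep.ratLocalizedAt p) H] [Module.Flat ↥(GaloisRep.ratLocalizedAt p) H] :
    Module.Projective ↥(GaloisRep.ratLocalizedAt p) H := by
  have : Module.Free ↥(GaloisRep.ratLocalizedAt p) H := Module.free_of_flat_of_isLocalRing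
  infer_instance

/-- **HOPF block, Prelude form**: `H` as in `GaloisRepAdic.IsFlatAt` (finite flat cocommutative Hopf
algebra over `ℤ_(p)`), all `PadicAlgCl p`-points killed by `p` ⟹ `hPM` of `rm_top` for the field
generated by the values of the points. -/
theorem hpf_top_prelude (H : Type) [CommRing H] [HopfAlgebra ↥(GaloisRep.ratLocalizedAt p) H]
    [Module.Finite ↥(GaloisRep.ratLocalizedAt p) H] [Module.Flat ↥(GaloisRep.ratLocalizedAt p) H]
    [Coalgebra.IsCocomm ↥(GaloisRep.ratLocalizedAt p) H]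
    (hkill : ∀ x : WithConv (H →ₐ[↥(GaloisRep.ratLocalizedAt p)] PadicAlgCl p), x ^ p = 1) :
    ∀ (K' : Type) [Field K'] [Algebra ℚ_[p] K'] [FiniteDimensional ℚ_[p] K']
      [Algebra K' ↥(hpfSplitField p ↥(GaloisRep.ratLocalizedAt p) H (PadicAlgCl p))]
      [IsScalarTower ℚ_[p] K' ↥(hpfSplitField p ↥(GaloisRep.ratLocalizedAt p) H (PadicAlgCl p))],
      LfUnramified p ℚ_[p] K' →
      ∀ m : ℚ, (p : ℚ) / ((p : ℚ) - 1) < m →
        RmPM p K' ↥(hpfSplitField p ↥(GaloisRep.ratLocalizedAt p) H (PadicAlgCl p)) m := by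
  have := hpf_projective_of_flat p H
  exact hpf_top_splitField p ↥(GaloisRep.ratLocalizedAt p) H (PadicAlgCl p) hkill

end Rat

end Fermat.Agent.S56
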