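/-
S56 / FLAT: HOPF block (helper16) ∘ RAM block (helper24) = **Fontaine's bound in Kummer form**.
`H` a finite flat cocommutative Hopf algebra over `ℤ_(p)` (the Prelude's `GaloisRep.ratLocalizedAt p`)
whose `PadicAlgCl p`-points are killed by `p`, `L ⊆ PadicAlgCl p` the field generated by the values of
the points, `F ⊆ L` tame Galois over `ℚ_p` containing `ζ_p`, `b ∈ Fˣ` with a `p`-th root in `L`:
then `b ∈ (1 + p 𝒪_F) · Fˣᵖ`.
-/
import Fermat.Agent.S56.Hopf.Rat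
import Fermat.Agent.S56.Ram.Top

set_option autoImplicit false

namespace Fermat.Agent.S56

open Fermat.Agent.S55

theorem hpf_fontaine_kummer (p : ℕ) [Fact p.Prime] (hp2 : p ≠ 2)
    (H : Type) [CommRing H] [HopfAlgebra ↥(GaloisRep.ratLocalizedAt p) H]
    [Module.Finite ↥(GaloisRep.ratLocalizedAt p) H] [Module.Flat ↥(GaloisRep.ratLocalizedAt p) H]
    [Coalgebra.IsCocomm ↥(GaloisRep.ratLocalizedAt p) H]
    (hkill : ∀ x : WithConv (H →ₐ[↥(GaloisRep.ratLocalizedAt p)] PadicAlgCl p), x ^ p = 1)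
    (F : Type) [Field F] [Algebra ℚ_[p] F] [FiniteDimensional ℚ_[p] F]
    [Algebra F ↥(hpfSplitField p ↥(GaloisRep.ratLocalizedAt p) H (PadicAlgCl p))]
    [IsScalarTower ℚ_[p] F ↥(hpfSplitField p ↥(GaloisRep.ratLocalizedAt p) H (PadicAlgCl p))]
    [IsGalois ℚ_[p] F] (htame : LfTame p ℚ_[p] F)
    {ζ : F} (hζ : IsPrimitiveRoot ζ p) (b : F) (hb : b ≠ 0)
    (β : ↥(hpfSplitField p ↥(GaloisRep.ratLocalizedAt p) H (PadicAlgCl p)))
    (hβ : β ^ p = algebraMap F _ b) :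
    ∃ c : F, c ≠ 0 ∧ (b * c ^ p = 1 ∨ lfOrd p F (p : F) ≤ lfOrd p F (b * c ^ p - 1)) :=
  rm_top p ↥(hpfSplitField p ↥(GaloisRep.ratLocalizedAt p) H (PadicAlgCl p)) hp2
    (hpf_top_prelude p H hkill) F htame hζ b hb β hβ

end Fermat.Agent.S56
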