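/-
S56 / FLAT / HOPF block (helper16): the GLOBAL → LOCAL bridge for points.
`Λ = GaloisRep.ratLocalizedAt p`, `H` a finite `Λ`-bialgebra, `ι = padicEmbedding p : ℚ̄ → PadicAlgCl p`.
* `hpfbLoc` : `WithConv (H →ₐ[Λ] ℚ̄) ≃* WithConv (H →ₐ[Λ] PadicAlgCl p)`, `f ↦ ι ∘ f`.
* `hpfbLoc_equivariant` : `τ (ι (f h)) = ι (localGaloisToGlobal p τ (f h))`.
* `hpfb_kill` : an additive bijection of the `ℚ̄`-points onto a group killed by `p` ⟹ local points
  killed by `p`.
* `hpfb_isFlatAt` : packaged consequence of the Prelude's `GaloisRepAdic.IsFlatAt` at a finite level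
  `V/IV`, `p ∈ I`: a finite Galois `L ⊆ PadicAlgCl p` through which the local Galois action on `V/IV`
  factors, satisfying Fontaine's bound in Kummer form.
-/
import Fermat.Agent.S56.Hopf.Fontaine
import Fermat.Prelude.Def_GaloisRep_CompletionBridge

set_option autoImplicit false
set_option linter.unusedSectionVars false

namespace Fermat.Agent.S56

open Fermat.Agent.S55 WithConv

section Bridge

variable (p : ℕ) [Fact p.Prime]

/-- elements of `PadicAlgCl p` algebraic over `ℚ` come from `ℚ̄`. -/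
theorem hpfb_mem_range (y : PadicAlgCl p) (hy : IsIntegral ℚ y) :
    y ∈ (padicEmbedding p).toRingHom.range := by
  have hsplit : ((minpoly ℚ y).map (algebraMap ℚ (AlgebraicClosure ℚ))).Splits :=
    IsAlgClosed.splits _
  have hne : (minpoly ℚ y).map (algebraMap ℚ (AlgebraicClosure ℚ)) ≠ 0 :=
    Polynomial.map_ne_zero (minpoly.ne_zero hy)
  refine hsplit.mem_range_of_isRoot hne (i := (padicEmbedding p).toRingHom) (x := y) ?_
  rw [Polynomial.map_map]
  have hcomp : (padicEmbedding p).toRingHom.comp (algebraMap ℚ (AlgebraicClosure ℚ)) =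
      algebraMap ℚ (PadicAlgCl p) := (padicEmbedding p).comp_algebraMap
  rw [hcomp, Polynomial.IsRoot.def, Polynomial.eval_map_algebraMap]
  exact minpoly.aeval ℚ y

variable (H : Type) [CommRing H] [Bialgebra ↥(GaloisRep.ratLocalizedAt p) H]
  [Module.Finite ↥(GaloisRep.ratLocalizedAt p) H]

/-- `ι` as a `Λ`-algebra hom. -/
noncomputable def hpfbIota :
    AlgebraicClosure ℚ →ₐ[↥(GaloisRep.ratLocalizedAt p)] PadicAlgCl p :=
  (padicEmbedding p).restrictScalars _

theorem hpfbIota_apply (x : AlgebraicClosure ℚ) : hpfbIota p x = padicEmbedding p x := rfl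

theorem hpfbIota_injective : Function.Injective (hpfbIota p) := (padicEmbedding p).injective

/-- values of local points come from `ℚ̄`. -/
theorem hpfb_point_mem_range (g : H →ₐ[↥(GaloisRep.ratLocalizedAt p)] PadicAlgCl p) (h : H) :
    ∃ z : AlgebraicClosure ℚ, hpfbIota p z = g h := by
  have h1 : IsIntegral ↥(GaloisRep.ratLocalizedAt p) h := Algebra.IsIntegral.isIntegral h
  have h2 : IsIntegral ↥(GaloisRep.ratLocalizedAt p) (g h) := h1.map g
  have h3 : IsIntegral ℚ (g h) := h2.tower_top
  obtain ⟨z, hz⟩ := hpfb_mem_range p (g h) h3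
  exact ⟨z, hz⟩

/-- post-composition with `ι`, as a monoid hom on points. -/
noncomputable def hpfbLocHom :
    WithConv (H →ₐ[↥(GaloisRep.ratLocalizedAt p)] AlgebraicClosure ℚ) →*
      WithConv (H →ₐ[↥(GaloisRep.ratLocalizedAt p)] PadicAlgCl p) where
  toFun f := toConv ((hpfbIota p).comp f.ofConv)
  map_one' := by
    apply WithConv.ext
    ext h
    simp
  map_mul' f g := by
    apply WithConv.ext
    exact AlgHom.comp_convMul_distrib (hpfbIota p) f g

theorem hpfbLocHom_apply (f : WithConv (H →ₐ[↥(GaloisRep.ratLocalizedAt p)] AlgebraicClosure ℚ))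
    (h : H) : (hpfbLocHom p H f).ofConv h = padicEmbedding p (f.ofConv h) := rfl

theorem hpfbLocHom_bijective : Function.Bijective (hpfbLocHom p H) := by
  constructor
  · intro f g hfg
    apply WithConv.ext
    ext h
    have := congrArg (fun φ : WithConv (H →ₐ[↥(GaloisRep.ratLocalizedAt p)] PadicAlgCl p) =>
      φ.ofConv h) hfg
    exact hpfbIota_injective p this
  · intro g
    choose z hz using hpfb_point_mem_range p H g.ofConv
    refine ⟨toConv
      { toFun := z
        map_one' := hpfbIota_injective p (by rw [hz, map_one, map_one])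
        map_mul' := fun a b => hpfbIota_injective p (by rw [hz, map_mul, map_mul, hz, hz])
        map_zero' := hpfbIota_injective p (by rw [hz, map_zero, map_zero])
        map_add' := fun a b => hpfbIota_injective p (by rw [hz, map_add, map_add, hz, hz])
        commutes' := fun c => hpfbIota_injective p (by
          rw [hz, AlgHom.commutes, AlgHom.commutes]) }, ?_⟩
    apply WithConv.ext
    ext h
    exact hz h

/-- **(B1)** global points ≃ local points. -/
noncomputable def hpfbLoc :
    WithConv (H →ₐ[↥(GaloisRep.ratLocalizedAt p)] AlgebraicClosure ℚ) ≃*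
      WithConv (H →ₐ[↥(GaloisRep.ratLocalizedAt p)] PadicAlgCl p) :=
  MulEquiv.ofBijective (hpfbLocHom p H) (hpfbLocHom_bijective p H)

theorem hpfbLoc_apply (f : WithConv (H →ₐ[↥(GaloisRep.ratLocalizedAt p)] AlgebraicClosure ℚ))
    (h : H) : (hpfbLoc p H f).ofConv h = padicEmbedding p (f.ofConv h) := rfl

/-- **(B2)** equivariance. -/
theorem hpfbLoc_equivariant (τ : PadicAlgCl p ≃ₐ[ℚ_[p]] PadicAlgCl p)
    (f : WithConv (H →ₐ[↥(GaloisRep.ratLocalizedAt p)] AlgebraicClosure ℚ)) (h : H) :
    τ ((hpfbLoc p H f).ofConv h) = padicEmbedding p (localGaloisToGlobal p τ (f.ofConv h)) := by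
  rw [hpfbLoc_apply, padicEmbedding_localGaloisToGlobal]

/-- **(B3)** if the global points are (additively) in bijection with a group killed by `p`, all
local points are killed by `p`. -/
theorem hpfb_kill {M : Type*} [AddCommGroup M] (hM : ∀ m : M, p • m = 0)
    (e : WithConv (H →ₐ[↥(GaloisRep.ratLocalizedAt p)] AlgebraicClosure ℚ) ≃ M)
    (he : ∀ f g, e (f * g) = e f + e g)
    (x : WithConv (H →ₐ[↥(GaloisRep.ratLocalizedAt p)] PadicAlgCl p)) : x ^ p = 1 := by
  have hone : e 1 = 0 := by
    have := he 1 1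
    rw [one_mul] at this
    exact left_eq_add.mp this
  have hpow : ∀ (f : WithConv (H →ₐ[↥(GaloisRep.ratLocalizedAt p)] AlgebraicClosure ℚ)) (n : ℕ),
      e (f ^ n) = n • e f := by
    intro f n
    induction n with
    | zero => rw [pow_zero, zero_smul, hone]
    | succ n ih => rw [pow_succ, he, ih, succ_nsmul]
  obtain ⟨f, rfl⟩ := (hpfbLoc p H).surjective x
  rw [← map_pow]
  have : f ^ p = 1 := e.injective (by rw [hpow, hM, hone])
  rw [this, map_one]

end Bridge

section Flat

variable (p : ℕ) [Fact p.Prime] {A : Type} [CommRing A] [IsLocalRing A]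

/-- **(B5)** what the Prelude's `IsFlatAt` gives at a finite level `V/IV` killed by `p`: a finite
Galois extension `L ⊆ PadicAlgCl p` of `ℚ_p` through which the local Galois action on `V/IV` factors
and which satisfies Fontaine's bound in Kummer form. -/
theorem hpfb_isFlatAt (hp2 : p ≠ 2) (ρ : GaloisRepAdic A) (hflat : ρ.IsFlatAt p) (I : Ideal A)
    (hfin : Finite (A ⧸ I)) (hpI : (p : A) ∈ I) :
    ∃ L : IntermediateField ℚ_[p] (PadicAlgCl p),
      FiniteDimensional ℚ_[p] ↥L ∧ IsGalois ℚ_[p] ↥L ∧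
      (∀ τ : PadicAlgCl p ≃ₐ[ℚ_[p]] PadicAlgCl p, (∀ y ∈ L, τ y = y) →
        ρ.levelAction I (localGaloisToGlobal p τ) = LinearMap.id) ∧
      ∀ (F : Type) [Field F] [Algebra ℚ_[p] F] [FiniteDimensional ℚ_[p] F] [Algebra F ↥L]
        [IsScalarTower ℚ_[p] F ↥L] [IsGalois ℚ_[p] F], LfTame p ℚ_[p] F →
        ∀ ζ : F, IsPrimitiveRoot ζ p → ∀ b : F, b ≠ 0 → ∀ β : ↥L, β ^ p = algebraMap F ↥L b →
        ∃ c : F, c ≠ 0 ∧ (b * c ^ p = 1 ∨ lfOrd p F (p : F) ≤ lfOrd p F (b * c ^ p - 1)) := by
  obtain ⟨-, hH⟩ := hflat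
  obtain ⟨H, _, _, _, _, _, e, hadd, hequiv⟩ := hH I hfin
  have hM : ∀ m : ρ.V ⧸ (I • (⊤ : Submodule A ρ.V)), p • m = 0 := by
    intro m
    induction m using Submodule.Quotient.induction_on with
    | H v =>
      rw [← Submodule.Quotient.mk_smul, Submodule.Quotient.mk_eq_zero,
        ← Nat.cast_smul_eq_nsmul A]
      exact Submodule.smul_mem_smul hpI Submodule.mem_top
  have hkill := hpfb_kill p H hM e hadd
  refine ⟨hpfSplitField p ↥(GaloisRep.ratLocalizedAt p) H (PadicAlgCl p), inferInstance,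
    inferInstance, ?_, ?_⟩
  · intro τ hτ
    apply LinearMap.ext
    intro m
    obtain ⟨f, rfl⟩ := e.surjective m
    set σ := localGaloisToGlobal p τ with hσ
    let g : WithConv (H →ₐ[↥(GaloisRep.ratLocalizedAt p)] AlgebraicClosure ℚ) :=
      toConv (((σ : AlgebraicClosure ℚ →ₐ[ℚ] AlgebraicClosure ℚ).restrictScalars
        ↥(GaloisRep.ratLocalizedAt p)).comp f.ofConv)
    have hg : ∀ h : H, g h = σ (f h) := fun h => rfl
    have hgf : g = f := by
      apply WithConv.ext
      ext h
      apply (padicEmbedding p).injective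
      change padicEmbedding p (σ (f.ofConv h)) = padicEmbedding p (f.ofConv h)
      rw [hσ, padicEmbedding_localGaloisToGlobal]
      apply hτ
      exact hpf_point_mem_splitField p ↥(GaloisRep.ratLocalizedAt p) H (PadicAlgCl p)
        (hpfbLoc p H f).ofConv h
    have := hequiv σ f g hg
    rw [hgf] at this
    rw [LinearMap.id_apply]
    exact this.symm
  · intro F _ _ _ _ _ _ htame ζ hζ b hb β hβ
    exact hpf_fontaine_kummer p hp2 H hkill F htame hζ b hb β hβ

end Flat

end Fermat.Agent.S56
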