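/-
S56 / FLAT / HOPF block (helper16): the convolution ring `WithConv (A →ₗ[O] R)` of a cocommutative
coalgebra `A` with values in a filtered ring `R` (Mathlib only).
-/
import Fermat.Agent.S56.Hopf.Filt

set_option autoImplicit false
set_option linter.unusedSectionVars false

namespace Fermat.Agent.S56

open WithConv TensorProduct Coalgebra

section Fil

variable {O : Type*} [CommRing O] {A : Type*} [AddCommGroup A] [Module O A] [Coalgebra O A]
  [IsCocomm O A] {R : Type*} [CommRing R] [Algebra O R]

/-- linear maps with values in an ideal form an ideal of the convolution ring. -/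
def hpfConvIdeal (I : Ideal R) : Ideal (WithConv (A →ₗ[O] R)) where
  carrier := {f | ∀ a, f.ofConv a ∈ I}
  add_mem' {f g} hf hg a := by
    simpa using I.add_mem (hf a) (hg a)
  zero_mem' a := by simp
  smul_mem' c f hf a := by
    change (c * f) a ∈ I
    rw [(ℛ O a).convMul_apply]
    exact I.sum_mem (fun i _ => I.mul_mem_left _ (hf _))

theorem mem_hpfConvIdeal {I : Ideal R} {f : WithConv (A →ₗ[O] R)} :
    f ∈ hpfConvIdeal (O := O) (A := A) I ↔ ∀ a, f.ofConv a ∈ I := Iff.rfl

theorem hpf_natCast_apply (n : ℕ) (f : WithConv (A →ₗ[O] R)) (a : A) :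
    (((n : WithConv (A →ₗ[O] R)) * f).ofConv a) = (n : R) * f.ofConv a := by
  have h : (n : WithConv (A →ₗ[O] R)) * f = n • f := (nsmul_eq_mul n f).symm
  rw [h]
  have h2 : (n • f).ofConv = n • f.ofConv := rfl
  rw [h2, LinearMap.smul_apply, nsmul_eq_mul]

theorem hpf_natCast_apply' (n : ℕ) (a : A) :
    ((n : WithConv (A →ₗ[O] R)).ofConv a) = (n : R) * algebraMap O R (counit a) := by
  have h := hpf_natCast_apply (O := O) n (1 : WithConv (A →ₗ[O] R)) a
  rw [mul_one] at h
  rw [h]
  rfl

/-- `p` is a non-zero-divisor in a ring with an `HpfFilt`. -/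
theorem hpf_p_cancel {p e : ℕ} (Φ : HpfFilt R p e) {x y : R} (h : (p : R) * x = (p : R) * y) :
    x = y := by
  have h0 : x - y = 0 := by
    apply Φ.sep
    intro k
    apply Φ.p_div
    have : (p : R) * (x - y) = 0 := by rw [mul_sub, h, sub_self]
    rw [this]
    exact Ideal.zero_mem _
  exact sub_eq_zero.mp h0

/-- limits in a ring with an `HpfFilt` are unique. -/
theorem hpf_limit_unique {p e : ℕ} (Φ : HpfFilt R p e) {s : ℕ → R} {l l' : R}
    (h : ∀ n, l - s n ∈ Φ.F n) (h' : ∀ n, l' - s n ∈ Φ.F n) : l = l' := by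
  have h0 : l - l' = 0 := by
    apply Φ.sep
    intro k
    have : l - l' = (l - s k) - (l' - s k) := by ring
    rw [this]
    exact Ideal.sub_mem _ (h k) (h' k)
  exact sub_eq_zero.mp h0

/-- the induced filtration on the convolution ring. -/
noncomputable def hpfFiltConv {p e : ℕ} (Φ : HpfFilt R p e) :
    HpfFilt (WithConv (A →ₗ[O] R)) p e where
  F k := hpfConvIdeal (Φ.F k)
  anti i j hij f hf a := Φ.anti i j hij (hf a)
  mul_mem i j x y hx hy a := by
    change (x * y) a ∈ Φ.F (i + j)
    rw [(ℛ O a).convMul_apply]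
    exact Ideal.sum_mem _ (fun t _ => Φ.mul_mem i j _ _ (hx _) (hy _))
  sep x hx := by
    apply WithConv.ext
    ext a
    exact Φ.sep _ (fun k => hx k a)
  p_mem a := by
    rw [hpf_natCast_apply']
    exact Ideal.mul_mem_right _ _ Φ.p_mem
  p_div k y hy a := by
    apply Φ.p_div
    rw [← hpf_natCast_apply]
    exact hy a
  p_mul k x hx := by
    classical
    have hex : ∀ a, ∃ y ∈ Φ.F k, x.ofConv a = (p : R) * y := fun a => Φ.p_mul k _ (hx a)
    choose g hg1 hg2 using hex
    have hadd : ∀ a b, g (a + b) = g a + g b := by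
      intro a b
      apply hpf_p_cancel Φ
      rw [mul_add, ← hg2, ← hg2, ← hg2, map_add]
    have hsmul : ∀ (c : O) a, g (c • a) = c • g a := by
      intro c a
      apply hpf_p_cancel Φ
      rw [← hg2, map_smul, hg2 a, Algebra.smul_def, Algebra.smul_def]
      ring
    refine ⟨toConv ⟨⟨g, hadd⟩, hsmul⟩, fun a => hg1 a, ?_⟩
    apply WithConv.ext
    ext a
    rw [hpf_natCast_apply]
    exact hg2 a
  complete s hs := by
    classical
    have hex : ∀ a, ∃ l, ∀ n, l - (s n).ofConv a ∈ Φ.F n := fun a =>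
      Φ.complete (fun n => (s n).ofConv a) (fun n => hs n a)
    choose g hg using hex
    have hadd : ∀ a b, g (a + b) = g a + g b := by
      intro a b
      refine hpf_limit_unique Φ (s := fun n => (s n).ofConv (a + b)) (hg (a + b)) (fun n => ?_)
      have : g a + g b - (s n).ofConv (a + b) =
          (g a - (s n).ofConv a) + (g b - (s n).ofConv b) := by
        rw [map_add]; ring
      rw [this]
      exact Ideal.add_mem _ (hg a n) (hg b n)
    have hsmul : ∀ (c : O) a, g (c • a) = c • g a := by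
      intro c a
      refine hpf_limit_unique Φ (s := fun n => (s n).ofConv (c • a)) (hg (c • a)) (fun n => ?_)
      have : c • g a - (s n).ofConv (c • a) = algebraMap O R c * (g a - (s n).ofConv a) := by
        rw [map_smul, Algebra.smul_def, Algebra.smul_def]; ring
      rw [this]
      exact Ideal.mul_mem_left _ _ (hg a n)
    exact ⟨toConv ⟨⟨g, hadd⟩, hsmul⟩, fun n a => hg a n⟩

end Fil

section Homs

variable {O : Type*} [CommRing O] {A : Type*} [AddCommGroup A] [Module O A] [Coalgebra O A]
  [IsCocomm O A] {R : Type*} [CommRing R] [Algebra O R] {R' : Type*} [CommRing R'] [Algebra O R']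

/-- post-composition with an algebra hom is a ring hom of convolution rings. -/
noncomputable def hpfPost (π : R →ₐ[O] R') : WithConv (A →ₗ[O] R) →+* WithConv (A →ₗ[O] R') where
  toFun f := toConv (π.toLinearMap ∘ₗ f.ofConv)
  map_one' := by
    apply WithConv.ext
    ext a
    simp
  map_mul' f g := by
    apply WithConv.ext
    exact LinearMap.algHom_comp_convMul_distrib π f g
  map_zero' := by
    apply WithConv.ext
    ext a
    simp
  map_add' f g := by
    apply WithConv.ext
    ext a
    simp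

@[simp] theorem hpfPost_apply (π : R →ₐ[O] R') (f : WithConv (A →ₗ[O] R)) (a : A) :
    (hpfPost π f).ofConv a = π (f.ofConv a) := rfl

theorem hpf_map_one_one :
    toConv (TensorProduct.map (1 : WithConv (A →ₗ[O] R)).ofConv (1 : WithConv (A →ₗ[O] R)).ofConv)
      = (1 : WithConv (A ⊗[O] A →ₗ[O] R ⊗[O] R)) := by
  apply WithConv.ext
  ext a b
  simp [Algebra.algebraMap_eq_smul_one, smul_tmul',
    smul_smul, mul_comm]
  rw [← smul_tmul', Algebra.TensorProduct.one_def]

/-- `f ↦ f ⊠ f`, `(f ⊠ f)(a ⊗ b) = f a * f b`, is multiplicative. -/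
noncomputable def hpfBox : WithConv (A →ₗ[O] R) →* WithConv (A ⊗[O] A →ₗ[O] R) where
  toFun f := hpfPost (Algebra.TensorProduct.lmul' O)
    (toConv (TensorProduct.map f.ofConv f.ofConv))
  map_one' := by
    rw [hpf_map_one_one, map_one]
  map_mul' f g := by
    rw [← map_mul]
    congr 1
    exact (TensorProduct.map_convMul_map (f := f) (g := f) (h := g) (k := g)).symm

@[simp] theorem hpfBox_tmul (f : WithConv (A →ₗ[O] R)) (a b : A) :
    (hpfBox f).ofConv (a ⊗ₜ b) = f.ofConv a * f.ofConv b := by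
  simp [hpfBox]

variable {B : Type*} [AddCommGroup B] [Module O B] [Coalgebra O B] [IsCocomm O B]

/-- pre-composition with a coalgebra hom is a ring hom of convolution rings. -/
noncomputable def hpfPre (h : B →ₗc[O] A) : WithConv (A →ₗ[O] R) →+* WithConv (B →ₗ[O] R) where
  toFun f := toConv (f.ofConv ∘ₗ h.toLinearMap)
  map_one' := by
    apply WithConv.ext
    ext b
    simp
  map_mul' f g := by
    apply WithConv.ext
    exact LinearMap.convMul_comp_coalgHom_distrib f g h
  map_zero' := by
    apply WithConv.ext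
    ext a
    simp
  map_add' f g := by
    apply WithConv.ext
    ext a
    simp

@[simp] theorem hpfPre_apply (h : B →ₗc[O] A) (f : WithConv (A →ₗ[O] R)) (b : B) :
    (hpfPre h f).ofConv b = f.ofConv (h b) := rfl

end Homs


section Inj

variable {O : Type*} [CommRing O] {A : Type*} [AddCommGroup A] [Module O A] [Coalgebra O A]
  [IsCocomm O A] {R : Type*} [CommRing R] [Algebra O R] {p e : ℕ}

/-- **INJECTIVITY**: two elements of the convolution ring with `p`-th power `1` which are congruent
modulo `F a`, `(p-1) a > e`, are equal. -/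
theorem hpf_conv_inj (hp : p.Prime) (Φ : HpfFilt R p e) {a : ℕ} (ha : e < (p - 1) * a)
    (u u' : WithConv (A →ₗ[O] R)) (hu : u ^ p = 1) (hu' : u' ^ p = 1)
    (h : ∀ x, u.ofConv x - u'.ofConv x ∈ Φ.F a) : u = u' := by
  set Ψ := hpfFiltConv (O := O) (A := A) Φ with hΨ
  have hmem : u - u' ∈ Ψ.F a := fun x => by simpa using h x
  obtain ⟨n, rfl⟩ : ∃ n, p = n + 1 := ⟨p - 1, by have := hp.two_le; omega⟩
  have h1 : u' * u' ^ n = 1 := by rw [← pow_succ', hu']
  have hy : u * u' ^ n - 1 ∈ Ψ.F a := by
    have : u * u' ^ n - 1 = (u - u') * u' ^ n := by rw [sub_mul, h1]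
    rw [this]
    exact Ideal.mul_mem_right _ _ hmem
  have hpow : (1 + (u * u' ^ n - 1)) ^ (n + 1) = 1 := by
    rw [add_sub_cancel, mul_pow, hu, one_mul, ← pow_mul, mul_comm, pow_mul, hu', one_pow]
  have h0 := hpf_eq_zero_of_pow hp Ψ ha hy hpow
  have h2 : u * u' ^ n = 1 := sub_eq_zero.mp h0
  calc u = u * (u' * u' ^ n) := by rw [h1, mul_one]
    _ = (u * u' ^ n) * u' := by ring
    _ = u' := by rw [h2, one_mul]

end Inj

section Lift

variable {O : Type*} [CommRing O] {A : Type*} [CommRing A] [Bialgebra O A]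
  [IsCocomm O A] {R : Type*} [CommRing R] [Algebra O R] {p e : ℕ}

/-- evaluation at `1` is a ring hom on the convolution ring of a bialgebra. -/
noncomputable def hpfEvalOne : WithConv (A →ₗ[O] R) →+* R where
  toFun f := f.ofConv 1
  map_one' := by simp
  map_mul' f g := by
    change (f * g) (1 : A) = _
    rw [LinearMap.convMul_apply, Bialgebra.comul_one, Algebra.TensorProduct.one_def]
    simp
  map_zero' := by simp
  map_add' f g := by simp

theorem hpf_lift_lin [Module.Projective O A] (hp : p.Prime) (Φ : HpfFilt R p e) {a : ℕ}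
    (ha : e < (p - 1) * a) (ub : WithConv (A →ₗ[O] R ⧸ Φ.F (a + e))) (hub : ub ^ p = 1) :
    ∃ u : WithConv (A →ₗ[O] R), u ^ p = 1 ∧
      ∀ x, Ideal.Quotient.mk (Φ.F a) (u.ofConv x) =
        Ideal.Quotient.factor (Φ.anti a (a + e) (Nat.le_add_right a e)) (ub.ofConv x) := by
  set Ψ := hpfFiltConv (O := O) (A := A) Φ with hΨ
  obtain ⟨u₀, hu₀⟩ := Module.projective_lifting_property
    (Ideal.Quotient.mkₐ O (Φ.F (a + e))).toLinearMap ub.ofConv
    (Ideal.Quotient.mkₐ_surjective O _)
  have hpost : hpfPost (A := A) (Ideal.Quotient.mkₐ O (Φ.F (a + e))) (toConv u₀) = ub := by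
    apply WithConv.ext
    exact hu₀
  have hz : (toConv u₀) ^ p - 1 ∈ Ψ.F (a + e) := by
    intro x
    rw [← Ideal.Quotient.eq_zero_iff_mem]
    have h1 : hpfPost (A := A) (Ideal.Quotient.mkₐ O (Φ.F (a + e))) ((toConv u₀) ^ p - 1) = 0 := by
      rw [map_sub, map_pow, map_one, hpost, hub, sub_self]
    change (hpfPost (A := A) (Ideal.Quotient.mkₐ O (Φ.F (a + e)))
      ((toConv u₀) ^ p - 1)).ofConv x = 0
    rw [h1]
    rfl
  obtain ⟨w, hw1, hw⟩ := hpf_exists_root hp Ψ ha hz
  refine ⟨toConv u₀ * w, ?_, fun x => ?_⟩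
  · rw [mul_pow, mul_comm]; exact hw
  · have hdiff : toConv u₀ * w - toConv u₀ ∈ Ψ.F a := by
      have : toConv u₀ * w - toConv u₀ = toConv u₀ * (w - 1) := by ring
      rw [this]
      exact Ideal.mul_mem_left _ _ hw1
    have h3 : Ideal.Quotient.mk (Φ.F a) ((toConv u₀ * w).ofConv x) =
        Ideal.Quotient.mk (Φ.F a) (u₀ x) := by
      rw [Ideal.Quotient.eq]
      simpa using hdiff x
    rw [h3]
    have h4 : ub.ofConv x = Ideal.Quotient.mk (Φ.F (a + e)) (u₀ x) := by
      rw [← hu₀]; rfl
    rw [h4, Ideal.Quotient.factor_mk]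

/-- **LIFTING**: a point of `R ⧸ F (a+e)` with `p`-th power `1` lifts to a point of `R` with
`p`-th power `1`, congruent to it modulo `F a`. -/
theorem hpf_conv_lift [Module.Projective O A] (hp : p.Prime) (Φ : HpfFilt R p e) {a : ℕ}
    (ha : e < (p - 1) * a) (ub : A →ₐ[O] R ⧸ Φ.F (a + e))
    (hub : (toConv ub.toLinearMap : WithConv (A →ₗ[O] R ⧸ Φ.F (a + e))) ^ p = 1) :
    ∃ u : A →ₐ[O] R, (toConv u.toLinearMap : WithConv (A →ₗ[O] R)) ^ p = 1 ∧
      ∀ x, Ideal.Quotient.mk (Φ.F a) (u x) =
        Ideal.Quotient.factor (Φ.anti a (a + e) (Nat.le_add_right a e)) (ub x) := by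
  obtain ⟨u, hu, hcong⟩ := hpf_lift_lin hp Φ ha (toConv ub.toLinearMap) hub
  have hcong' : ∀ x, Ideal.Quotient.mk (Φ.F a) (u.ofConv x) =
      Ideal.Quotient.factor (Φ.anti a (a + e) (Nat.le_add_right a e)) (ub x) := hcong
  -- unit
  have hone : u.ofConv 1 = 1 := by
    have h1 : (u.ofConv 1) ^ p = 1 := by
      have := congrArg (hpfEvalOne (O := O) (A := A) (R := R)) hu
      rw [map_pow, map_one] at this
      exact this
    have h2 : u.ofConv 1 - 1 ∈ Φ.F a := by
      rw [← Ideal.Quotient.eq, hcong', map_one, map_one, map_one]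
    have h3 : (1 + (u.ofConv 1 - 1)) ^ p = 1 := by rw [add_sub_cancel]; exact h1
    exact sub_eq_zero.mp (hpf_eq_zero_of_pow hp Φ ha h2 h3)
  -- multiplicativity
  have hmul : ∀ x y, u.ofConv (x * y) = u.ofConv x * u.ofConv y := by
    have hX : (hpfPre (R := R) (Bialgebra.mulCoalgHom O A) u) ^ p = 1 := by
      rw [← map_pow, hu, map_one]
    have hY : (hpfBox u) ^ p = 1 := by
      rw [← map_pow, hu, map_one]
    have hXY : hpfPre (R := R) (Bialgebra.mulCoalgHom O A) u = hpfBox u := by
      refine hpf_conv_inj hp Φ ha _ _ hX hY (fun t => ?_)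
      induction t using TensorProduct.induction_on with
      | zero => simp
      | tmul x y =>
        rw [hpfPre_apply, hpfBox_tmul, ← Ideal.Quotient.eq]
        have : (Bialgebra.mulCoalgHom O A) (x ⊗ₜ[O] y) = x * y := by simp
        rw [this]
        have e1 : Ideal.Quotient.mk (Φ.F a) (u.ofConv (x * y)) =
            Ideal.Quotient.factor (Φ.anti a (a + e) (Nat.le_add_right a e)) (ub x) *
              Ideal.Quotient.factor (Φ.anti a (a + e) (Nat.le_add_right a e)) (ub y) := by
          rw [hcong', map_mul, map_mul]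
        have e2 : Ideal.Quotient.mk (Φ.F a) (u.ofConv x * u.ofConv y) =
            Ideal.Quotient.factor (Φ.anti a (a + e) (Nat.le_add_right a e)) (ub x) *
              Ideal.Quotient.factor (Φ.anti a (a + e) (Nat.le_add_right a e)) (ub y) := by
          rw [map_mul, hcong', hcong']
        rw [e1, e2]
      | add s t hs ht =>
        rw [map_add, map_add]
        have : (hpfPre (R := R) (Bialgebra.mulCoalgHom O A) u).ofConv s +
            (hpfPre (R := R) (Bialgebra.mulCoalgHom O A) u).ofConv t -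
            ((hpfBox u).ofConv s + (hpfBox u).ofConv t) =
            ((hpfPre (R := R) (Bialgebra.mulCoalgHom O A) u).ofConv s - (hpfBox u).ofConv s) +
            ((hpfPre (R := R) (Bialgebra.mulCoalgHom O A) u).ofConv t - (hpfBox u).ofConv t) := by
          ring
        rw [this]
        exact Ideal.add_mem _ hs ht
    intro x y
    have := congrArg (fun f => f.ofConv (x ⊗ₜ[O] y)) hXY
    simpa using this
  refine ⟨AlgHom.ofLinearMap u.ofConv hone hmul, ?_, fun x => hcong' x⟩
  have : (toConv (AlgHom.ofLinearMap u.ofConv hone hmul).toLinearMap : WithConv (A →ₗ[O] R)) = u := by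
    apply WithConv.ext
    ext x
    rfl
  rw [this]
  exact hu

end Lift

end Fermat.Agent.S56
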