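/-
S56 / FLAT / HOPF block, leaf L1 (helper16): the `𝔪`-adic filtration of `𝒪_E = lfInt p E` is an
`HpfFilt` with `e = e_E = lfRamIdx p ℚ_[p] E`.
-/
import Fermat.Agent.S56.Hopf.Defs

set_option autoImplicit false
set_option linter.unusedSectionVars false

namespace Fermat.Agent.S56

open Fermat.Agent.S55 IsLocalRing

section L1

variable (p : ℕ) [Fact p.Prime]
  (E : Type) [Field E] [Algebra ℚ_[p] E] [FiniteDimensional ℚ_[p] E]

theorem hpf_lfOrd_prime_base : lfOrd p ℚ_[p] ((p : ℕ) : ℚ_[p]) = 1 := by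
  have h1 := lfOrd_prime_mul_lfAbsInertiaDeg p ℚ_[p]
  rw [Module.finrank_self] at h1
  have h2 := lro_lfOrd_prime_pos p ℚ_[p]
  exact Int.eq_one_of_mul_eq_one_right h2.le (by exact_mod_cast h1)

/-- `v_E(p) = e_E`. -/
theorem hpf_lfOrd_prime : lfOrd p E ((p : ℕ) : E) = (lfRamIdx p ℚ_[p] E : ℤ) := by
  have h := lfOrd_algebraMap p ℚ_[p] E ((p : ℕ) : ℚ_[p])
  rw [map_natCast, hpf_lfOrd_prime_base, mul_one] at h
  exact h

theorem hpf_span_prime :
    Ideal.span {((p : ℕ) : ↥(lfInt p E))} =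
      maximalIdeal ↥(lfInt p E) ^ (lfRamIdx p ℚ_[p] E) := by
  rw [lro_span_prime_eq_pow, hpf_lfOrd_prime, Int.toNat_natCast]

theorem hpf_natCast_ne_zero : ((p : ℕ) : ↥(lfInt p E)) ≠ 0 := by
  intro h
  have h1 := congrArg (fun z : ↥(lfInt p E) => (z : E)) h
  simp only [ZeroMemClass.coe_zero] at h1
  exact lro_natCast_prime_ne_zero p E (by rw [← h1]; push_cast; rfl)

theorem hpf_pow_add_eq (k : ℕ) :
    maximalIdeal ↥(lfInt p E) ^ (k + lfRamIdx p ℚ_[p] E) =
      Ideal.span {((p : ℕ) : ↥(lfInt p E))} * maximalIdeal ↥(lfInt p E) ^ k := by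
  rw [hpf_span_prime, ← pow_add, add_comm]

/-- the `𝔪`-adic filtration of `𝒪_E`. -/
noncomputable def hpfFiltLf : HpfFilt ↥(lfInt p E) p (lfRamIdx p ℚ_[p] E) where
  F k := maximalIdeal ↥(lfInt p E) ^ k
  anti i j hij := Ideal.pow_le_pow_right hij
  mul_mem i j x y hx hy := by
    rw [pow_add]
    exact Ideal.mul_mem_mul hx hy
  sep x hx := by
    apply IsHausdorff.haus' (I := maximalIdeal ↥(lfInt p E)) x
    intro n
    rw [SModEq.sub_mem, smul_eq_mul, Ideal.mul_top, sub_zero]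
    exact hx n
  p_mem := by
    rw [← hpf_span_prime]
    exact Ideal.mem_span_singleton_self _
  p_div k y hy := by
    rw [hpf_pow_add_eq, Ideal.mem_span_singleton_mul] at hy
    obtain ⟨z, hz, hzy⟩ := hy
    have : z = y := mul_left_cancel₀ (hpf_natCast_ne_zero p E) hzy
    rw [← this]
    exact hz
  p_mul k x hx := by
    rw [hpf_pow_add_eq, Ideal.mem_span_singleton_mul] at hx
    obtain ⟨z, hz, hzx⟩ := hx
    exact ⟨z, hz, hzx.symm⟩
  complete s hs := by
    have hmem : ∀ (n : ℕ) (x y : ↥(lfInt p E)),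
        x ≡ y [SMOD (maximalIdeal ↥(lfInt p E) ^ n • ⊤ :
          Submodule ↥(lfInt p E) ↥(lfInt p E))] ↔
          x - y ∈ maximalIdeal ↥(lfInt p E) ^ n := by
      intro n x y
      rw [SModEq.sub_mem, smul_eq_mul, Ideal.mul_top]
    have htel : ∀ m d, s (m + d) - s m ∈ maximalIdeal ↥(lfInt p E) ^ m := by
      intro m d
      induction d with
      | zero => simp
      | succ d ih =>
        have h1 : s (m + (d + 1)) - s m = (s (m + d + 1) - s (m + d)) + (s (m + d) - s m) := by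
          rw [← add_assoc]; ring
        rw [h1]
        exact Ideal.add_mem _ (Ideal.pow_le_pow_right (Nat.le_add_right m d) (hs (m + d))) ih
    obtain ⟨l, hl⟩ := IsPrecomplete.prec' (I := maximalIdeal ↥(lfInt p E)) s (by
      intro m n hmn
      rw [hmem]
      obtain ⟨d, rfl⟩ := Nat.exists_eq_add_of_le hmn
      have := htel m d
      rw [← Ideal.neg_mem_iff] at this
      simpa using this)
    refine ⟨l, fun n => ?_⟩
    have := (hmem n _ _).mp (hl n)
    rw [← Ideal.neg_mem_iff] at this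
    simpa using this

@[simp] theorem hpfFiltLf_F (k : ℕ) :
    (hpfFiltLf p E).F k = maximalIdeal ↥(lfInt p E) ^ k := rfl

theorem hpf_exists_filtLf :
    ∃ Φ : HpfFilt ↥(lfInt p E) p (lfRamIdx p ℚ_[p] E),
      ∀ k, Φ.F k = maximalIdeal ↥(lfInt p E) ^ k :=
  ⟨hpfFiltLf p E, fun _ => rfl⟩

end L1

end Fermat.Agent.S56
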