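/-
S56 / FLAT / HOPF block, leaf L6 (row 365): ring homs out of `ℤ_p` into a ring where `p` is nilpotent
agree (statement VERBATIM from `Hopf/Spec.lean`, section L6).

Proof: `x = appr x N + p^N t` (`PadicInt.appr_spec`), so `χ x = (appr x N : S)` for every ring hom `χ`.
-/
import Mathlib

set_option autoImplicit false

namespace Fermat.Agent.S56

/-- a ring hom `ℤ_p → S` with `p^N = 0` in `S` is given by `x ↦ appr x N`. -/
theorem hpf_ringHom_padicInt_apply (p : ℕ) [Fact p.Prime] {S : Type*} [CommRing S] (N : ℕ)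
    (hN : ((p : ℕ) : S) ^ N = 0) (χ : ℤ_[p] →+* S) (x : ℤ_[p]) : χ x = ((x.appr N : ℕ) : S) := by
  obtain ⟨t, ht⟩ := Ideal.mem_span_singleton.1 (PadicInt.appr_spec N x)
  have hx : x = ((x.appr N : ℕ) : ℤ_[p]) + ((p : ℕ) : ℤ_[p]) ^ N * t := by
    rw [← ht]
    ring
  conv_lhs => rw [hx]
  rw [map_add, map_mul, map_pow, map_natCast, map_natCast, hN, zero_mul, add_zero]

theorem hpf_ringHom_padicInt_ext (p : ℕ) [Fact p.Prime] {S : Type*} [CommRing S] (N : ℕ)
    (hN : ((p : ℕ) : S) ^ N = 0) (φ ψ : ℤ_[p] →+* S) : φ = ψ := by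
  ext x
  rw [hpf_ringHom_padicInt_apply p N hN φ x, hpf_ringHom_padicInt_apply p N hN ψ x]

end Fermat.Agent.S56
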