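/-
S56 / FLAT / HOPF block, leaf L5 (row 365): points of a finite algebra (statements VERBATIM from
`Hopf/Spec.lean`, section L5).

* `hpf_finite_points`   : a finite `O`-algebra `A` has finitely many points in a field `F`
  (a point is determined by its values on a finite set of module generators, and each value is a
  root of a fixed monic polynomial);
* `hpf_point_mem_lfInt` : the values of a point `A → E` are integers of the local field `E`.
-/
import Fermat.Agent.S56.Hopf.Defs

set_option autoImplicit false
set_option linter.unusedSectionVars false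
set_option linter.unusedVariables false

namespace Fermat.Agent.S56

open Fermat.Agent.S55 IsLocalRing Polynomial

attribute [local instance] hpfIntAlg

section L5

/-- a finite algebra has finitely many points in a field. -/
theorem hpf_finite_points (O : Type) [CommRing O] (A : Type) [CommRing A] [Algebra O A]
    [Module.Finite O A] (F : Type) [Field F] [Algebra O F] : Finite (A →ₐ[O] F) := by
  classical
  obtain ⟨s, hs⟩ := (Module.Finite.fg_top : (⊤ : Submodule O A).FG)
  choose P hPm hP0 using fun a : A => (IsIntegral.of_finite O a : IsIntegral O a)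
  have hne : ∀ a : A, (P a).map (algebraMap O F) ≠ 0 := fun a => ((hPm a).map _).ne_zero
  have hroot : ∀ (f : A →ₐ[O] F) (a : A), f a ∈ ((P a).map (algebraMap O F)).roots.toFinset := by
    intro f a
    rw [Multiset.mem_toFinset, mem_roots (hne a), IsRoot.def, eval_map, ← aeval_def,
      aeval_algHom_apply, aeval_def, hP0 a, map_zero]
  let Φ : (A →ₐ[O] F) → ∀ a : ↥s, ↥(((P a.1).map (algebraMap O F)).roots.toFinset) :=
    fun f a => ⟨f a.1, hroot f a.1⟩
  refine Finite.of_injective Φ ?_
  intro f g hfg
  have h1 : ∀ a ∈ s, f a = g a := by
    intro a ha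
    have := congrFun hfg ⟨a, ha⟩
    exact congrArg Subtype.val this
  have h2 : f.toLinearMap = g.toLinearMap := LinearMap.ext_on hs fun a ha => h1 a ha
  exact AlgHom.toLinearMap_injective h2

variable (p : ℕ) [Fact p.Prime] (O : Type) [CommRing O] [Algebra O ℚ_[p]] [HpfIntegral p O]
  (A : Type) [CommRing A] [Algebra O A] [Module.Finite O A]
  (E : Type) [Field E] [Algebra ℚ_[p] E] [FiniteDimensional ℚ_[p] E]
  [Algebra O E] [IsScalarTower O ℚ_[p] E]

/-- an element of `E` integral over `O` is an integer of `E`. -/
theorem hpf_mem_lfInt_of_isIntegral {x : E} (hx : IsIntegral O x) : x ∈ lfInt p E := by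
  have := hpf_isScalarTower_int p O E
  have h1 : IsIntegral ↥(lfInt p E) x := hx.tower_top
  obtain ⟨y, hy⟩ := IsIntegrallyClosed.isIntegral_iff.1 h1
  rw [← hy]
  exact y.2

/-- points have integral values. -/
theorem hpf_point_mem_lfInt (f : A →ₐ[O] E) (h : A) : f h ∈ lfInt p E :=
  hpf_mem_lfInt_of_isIntegral p O E ((IsIntegral.of_finite O h).map f)

end L5

end Fermat.Agent.S56
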