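/-
S56 / FLAT / HOPF block, leaf L2 (row 362): `hpf_val`, VERBATIM from `Hopf/Spec.lean` (helper16).
A ring hom `η : 𝒪_L → 𝒪_E / 𝔪_E^(a+e_E)` with `(p-1) a > e_E` respects valuations.
Helper names are prefixed `hpfv_`.
-/
import Fermat.Agent.S56.Hopf.Defs

set_option autoImplicit false
set_option linter.unusedSectionVars false
set_option linter.unusedVariables false

namespace Fermat.Agent.S56

open Fermat.Agent.S55 IsLocalRing Polynomial

section Prime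

variable (p : ℕ) [Fact p.Prime]
  (E : Type) [Field E] [Algebra ℚ_[p] E] [FiniteDimensional ℚ_[p] E]

/-- `v_E(p) = e_E`. -/
theorem hpfv_lfOrd_prime : lfOrd p E ((p : ℕ) : E) = (lfRamIdx p ℚ_[p] E : ℤ) := by
  have h1 := lfOrd_algebraMap p ℚ_[p] E ((p : ℕ) : ℚ_[p])
  rw [map_natCast] at h1
  have h2 : lfOrd p ℚ_[p] ((p : ℕ) : ℚ_[p]) = 1 := by
    have h3 := lfOrd_prime_mul_lfAbsInertiaDeg p ℚ_[p]
    rw [Module.finrank_self] at h3
    have h4 := lro_lfOrd_prime_pos p ℚ_[p]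
    have h5 : (0 : ℤ) ≤ (lfAbsInertiaDeg p ℚ_[p] : ℤ) := Int.natCast_nonneg _
    rcases Int.eq_one_or_neg_one_of_mul_eq_one' (by exact_mod_cast h3) with ⟨h, -⟩ | ⟨h, -⟩
    · exact h
    · omega
  rw [h1, h2, mul_one]

/-- an element of `𝒪_E` whose class modulo `𝔪^N` (`N > 0`) is invertible is a unit. -/
theorem hpfv_isUnit_of_mk_mul_eq_one (N : ℕ) (hN : 0 < N) (w w' : ↥(lfInt p E))
    (h : Ideal.Quotient.mk (maximalIdeal ↥(lfInt p E) ^ N) w *
      Ideal.Quotient.mk (maximalIdeal ↥(lfInt p E) ^ N) w' = 1) : IsUnit w := by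
  rw [← map_mul, ← map_one (Ideal.Quotient.mk (maximalIdeal ↥(lfInt p E) ^ N)),
    Ideal.Quotient.eq] at h
  have h1 : w * w' - 1 ∈ maximalIdeal ↥(lfInt p E) :=
    Ideal.pow_le_self (Nat.pos_iff_ne_zero.mp hN) h
  have h2 : w * w' ∉ maximalIdeal ↥(lfInt p E) := by
    intro h3
    have h4 : (1 : ↥(lfInt p E)) ∈ maximalIdeal ↥(lfInt p E) := by
      have := Ideal.sub_mem _ h3 h1
      rwa [sub_sub_cancel] at this
    exact (Ideal.ne_top_iff_one _).mp (maximalIdeal.isMaximal _).ne_top h4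
  have h5 : IsUnit (w * w') := by
    by_contra h6
    exact h2 ((mem_maximalIdeal _).mpr h6)
  exact isUnit_of_mul_isUnit_left h5

end Prime

section L2

variable (p : ℕ) [Fact p.Prime]
  (L : Type) [Field L] [Algebra ℚ_[p] L] [FiniteDimensional ℚ_[p] L]
  (E : Type) [Field E] [Algebra ℚ_[p] E] [FiniteDimensional ℚ_[p] E]

/-- the image under `η` of a nonzero `c ∈ 𝒪_L` of valuation `t` is the class of `y₀^t` times a
unit, `y₀` a lift of `η π_L`. -/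
theorem hpfv_eta_eq (N : ℕ) (hN : 0 < N)
    (η : ↥(lfInt p L) →+* ↥(lfInt p E) ⧸ maximalIdeal ↥(lfInt p E) ^ N)
    {π : L} (hπ : IsLfUniformizer p L π) (y₀ : ↥(lfInt p E))
    (hy₀ : Ideal.Quotient.mk _ y₀ = η ⟨π, lro_uniformizer_mem p L hπ⟩)
    (c : ↥(lfInt p L)) (hc : c ≠ 0) :
    ∃ w : ↥(lfInt p E), IsUnit w ∧
      η c = Ideal.Quotient.mk _ (y₀ ^ (lfOrd p L (c : L)).toNat * w) := by
  obtain ⟨v, hv⟩ := lro_associated_pow p L hπ c hc
  obtain ⟨w, hw⟩ := Ideal.Quotient.mk_surjective (η (v : ↥(lfInt p L)))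
  obtain ⟨w', hw'⟩ := Ideal.Quotient.mk_surjective (η ((v⁻¹ : (↥(lfInt p L))ˣ) : ↥(lfInt p L)))
  have hunit : IsUnit w := by
    refine hpfv_isUnit_of_mk_mul_eq_one p E N hN w w' ?_
    rw [hw, hw', ← map_mul, Units.mul_inv, map_one]
  refine ⟨w, hunit, ?_⟩
  calc η c = η (⟨π, lro_uniformizer_mem p L hπ⟩ ^ (lfOrd p L (c : L)).toNat * v) := by rw [hv]
    _ = _ := by rw [map_mul, map_pow, ← hy₀, ← hw, ← map_pow, ← map_mul]

theorem hpf_val (a : ℕ) (ha : lfRamIdx p ℚ_[p] E < (p - 1) * a)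
    (η : ↥(lfInt p L) →+*
      ↥(lfInt p E) ⧸ maximalIdeal ↥(lfInt p E) ^ (a + lfRamIdx p ℚ_[p] E)) :
    ∃ a' : ℕ, lfRamIdx p ℚ_[p] L < (p - 1) * a' ∧
      ∀ x : ↥(lfInt p L),
        Ideal.Quotient.factor
          (Ideal.pow_le_pow_right (Nat.le_add_right a (lfRamIdx p ℚ_[p] E))) (η x) = 0 →
        x ∈ maximalIdeal ↥(lfInt p L) ^ a' := by
  classical
  have heEpos : 0 < lfRamIdx p ℚ_[p] E := lfRamIdx_pos p ℚ_[p] E
  have heLpos : 0 < lfRamIdx p ℚ_[p] L := lfRamIdx_pos p ℚ_[p] L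
  have hNpos : 0 < a + lfRamIdx p ℚ_[p] E := by omega
  have hapos : 0 < a := by
    rcases Nat.eq_zero_or_pos a with h0 | h0
    · rw [h0, mul_zero] at ha; omega
    · exact h0
  obtain ⟨π, hπ⟩ := exists_isLfUniformizer p L
  obtain ⟨y₀, hy₀⟩ := Ideal.Quotient.mk_surjective (η ⟨π, lro_uniformizer_mem p L hπ⟩)
  -- the prime `p` in `𝒪_L`, `𝒪_E`
  have hpL : (((p : ℕ) : ↥(lfInt p L)) : L) = ((p : ℕ) : L) := by push_cast; rfl
  have hpE : (((p : ℕ) : ↥(lfInt p E)) : E) = ((p : ℕ) : E) := by push_cast; rfl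
  have hpL0 : ((p : ℕ) : ↥(lfInt p L)) ≠ 0 := by
    intro h0
    have := congrArg (fun z : ↥(lfInt p L) => (z : L)) h0
    simp only [hpL] at this
    exact lro_natCast_prime_ne_zero p L this
  have hpE0 : ((p : ℕ) : E) ≠ 0 := lro_natCast_prime_ne_zero p E
  -- `η p = class of y₀^(e_L) * w`
  obtain ⟨w, hw, hηp⟩ := hpfv_eta_eq p L E _ hNpos η hπ y₀ hy₀ _ hpL0
  rw [hpL, hpfv_lfOrd_prime, Int.toNat_natCast, map_natCast,
    ← map_natCast (Ideal.Quotient.mk (maximalIdeal ↥(lfInt p E) ^ (a + lfRamIdx p ℚ_[p] E))),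
    Ideal.Quotient.eq] at hηp
  -- the valuation of `y₀`
  have hw0 : (w : E) ≠ 0 := fun h0 => hw.ne_zero (Subtype.ext h0)
  have hword : lfOrd p E (w : E) = 0 := (lro_isUnit_iff p E w hw0).mp hw
  have hprod : lfOrd p E (((y₀ ^ lfRamIdx p ℚ_[p] L * w : ↥(lfInt p E)) : ↥(lfInt p E)) : E) =
      (lfRamIdx p ℚ_[p] E : ℤ) ∧ (y₀ : E) ≠ 0 := by
    set z : ↥(lfInt p E) := (p : ℕ) - y₀ ^ lfRamIdx p ℚ_[p] L * w with hz
    have hsum : ((y₀ ^ lfRamIdx p ℚ_[p] L * w : ↥(lfInt p E)) : E) = ((p : ℕ) : E) + (-(z : E)) := by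
      rw [hz]
      push_cast
      ring
    by_cases hz0 : z = 0
    · have h1 : ((y₀ ^ lfRamIdx p ℚ_[p] L * w : ↥(lfInt p E)) : E) = ((p : ℕ) : E) := by
        rw [hsum, hz0]; simp
      refine ⟨by rw [h1, hpfv_lfOrd_prime], ?_⟩
      intro hy0
      apply hpE0
      rw [← h1]
      push_cast
      rw [hy0, zero_pow heLpos.ne', zero_mul]
    · have hzord := (mem_maximalIdeal_pow_lfInt_iff p E z hz0 _).mp hηp
      have hz0' : (z : E) ≠ 0 := lro_coe_ne_zero p E hz0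
      have h1 : lfOrd p E ((p : ℕ) : E) < lfOrd p E (-(z : E)) := by
        rw [lfOrd_neg, hpfv_lfOrd_prime]
        push_cast at hzord
        omega
      have h2 := lfOrd_add_eq_of_lt p E hpE0 (neg_ne_zero.mpr hz0') h1
      refine ⟨by rw [hsum, h2, hpfv_lfOrd_prime], ?_⟩
      intro hy0
      have h3 : ((y₀ ^ lfRamIdx p ℚ_[p] L * w : ↥(lfInt p E)) : E) = 0 := by
        push_cast
        rw [hy0, zero_pow heLpos.ne', zero_mul]
      rw [h3] at hsum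
      have h4 : ((p : ℕ) : E) = (z : E) := by linear_combination -hsum
      rw [h4, lfOrd_neg] at h1
      exact lt_irrefl _ h1
  obtain ⟨hprod, hy0⟩ := hprod
  have hy0' : y₀ ≠ 0 := fun h0 => hy0 (by rw [h0]; rfl)
  have hrnn : 0 ≤ lfOrd p E (y₀ : E) := lro_lfOrd_nonneg p E y₀ hy0'
  have hr : (lfRamIdx p ℚ_[p] L : ℤ) * lfOrd p E (y₀ : E) = lfRamIdx p ℚ_[p] E := by
    have h1 : ((y₀ ^ lfRamIdx p ℚ_[p] L * w : ↥(lfInt p E)) : E) =
        (y₀ : E) ^ lfRamIdx p ℚ_[p] L * (w : E) := by push_cast; rfl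
    rw [h1, lfOrd_mul p E (pow_ne_zero _ hy0) hw0, lfOrd_pow, hword, add_zero] at hprod
    exact hprod
  obtain ⟨r, hrr⟩ : ∃ r : ℕ, (r : ℤ) = lfOrd p E (y₀ : E) := ⟨_, Int.toNat_of_nonneg hrnn⟩
  rw [← hrr] at hr
  have hr' : lfRamIdx p ℚ_[p] L * r = lfRamIdx p ℚ_[p] E := by exact_mod_cast hr
  have hrpos : 0 < r := by
    rcases Nat.eq_zero_or_pos r with h0 | h0
    · rw [h0, mul_zero] at hr'; omega
    · exact h0
  -- the ceiling `a' = ⌈a / r⌉`
  have hceil : a ≤ (a + r - 1) / r * r := by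
    have h1 := Nat.div_add_mod (a + r - 1) r
    have h2 := Nat.mod_lt (a + r - 1) hrpos
    rw [mul_comm] at h1
    omega
  refine ⟨(a + r - 1) / r, ?_, ?_⟩
  · by_contra hcon
    rw [not_lt] at hcon
    have h1 : (p - 1) * ((a + r - 1) / r) * r ≤ lfRamIdx p ℚ_[p] L * r :=
      Nat.mul_le_mul_right r hcon
    have h2 : (p - 1) * a ≤ (p - 1) * ((a + r - 1) / r * r) := Nat.mul_le_mul_left _ hceil
    rw [← mul_assoc] at h2
    omega
  · intro x hx
    by_cases hx0 : x = 0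
    · rw [hx0]; exact Ideal.zero_mem _
    obtain ⟨wx, hwx, hηx⟩ := hpfv_eta_eq p L E _ hNpos η hπ y₀ hy₀ x hx0
    rw [hηx, Ideal.Quotient.factor_mk, Ideal.Quotient.eq_zero_iff_mem] at hx
    have hwx0 : (wx : E) ≠ 0 := fun h0 => hwx.ne_zero (Subtype.ext h0)
    have hwxord : lfOrd p E (wx : E) = 0 := (lro_isUnit_iff p E wx hwx0).mp hwx
    set t := (lfOrd p L (x : L)).toNat with ht
    have htt : (t : ℤ) = lfOrd p L (x : L) := Int.toNat_of_nonneg (lro_lfOrd_nonneg p L x hx0)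
    have hne : y₀ ^ t * wx ≠ 0 := mul_ne_zero (pow_ne_zero _ hy0') hwx.ne_zero
    have h1 := (mem_maximalIdeal_pow_lfInt_iff p E _ hne a).mp hx
    have h2 : ((y₀ ^ t * wx : ↥(lfInt p E)) : E) = (y₀ : E) ^ t * (wx : E) := by push_cast; rfl
    rw [h2, lfOrd_mul p E (pow_ne_zero _ hy0) hwx0, lfOrd_pow, hwxord, add_zero, ← hrr] at h1
    have h3 : a ≤ t * r := by exact_mod_cast h1
    rw [mem_maximalIdeal_pow_lfInt_iff p L x hx0, ← htt]
    have h4 : (a + r - 1) / r ≤ t := by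
      rw [Nat.div_le_iff_le_mul_add_pred hrpos]
      have h5 : r * t = t * r := mul_comm _ _
      omega
    exact_mod_cast h4

end L2

end Fermat.Agent.S56
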