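/-
S56 / FLAT / HOPF block (helper16): the counting step.
A ring hom `η : 𝒪_L →+* 𝒪_E ⧸ 𝔪_E^(a+e_E)`, `(p-1) a > e_E`, induces an injection
`G(L) = G(𝒪_L) ↪ G(𝒪_E) = G(E)` on points killed by `p`.
-/
import Fermat.Agent.S56.Hopf.Conv
import Fermat.Agent.S56.Hopf.FiltLf
import Fermat.Agent.S56.Hopf.Val
import Fermat.Agent.S56.Hopf.Points
import Fermat.Agent.S56.Hopf.PadicExt

set_option autoImplicit false
set_option linter.unusedSectionVars false

namespace Fermat.Agent.S56

open Fermat.Agent.S55 IsLocalRing WithConv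

attribute [local instance] hpfIntAlg

section Pts

variable (p : ℕ) [Fact p.Prime] (O : Type) [CommRing O] [Algebra O ℚ_[p]] [HpfIntegral p O]
  (A : Type) [CommRing A] [Algebra O A] [Module.Finite O A]
  (E : Type) [Field E] [Algebra ℚ_[p] E] [FiniteDimensional ℚ_[p] E]
  [Algebra O E] [IsScalarTower O ℚ_[p] E]

/-- the inclusion `𝒪_E → E` as an `O`-algebra hom. -/
noncomputable def hpfVal : ↥(lfInt p E) →ₐ[O] E where
  toFun x := (x : E)
  map_one' := rfl
  map_mul' _ _ := rfl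
  map_zero' := rfl
  map_add' _ _ := rfl
  commutes' _ := rfl

theorem hpfVal_injective : Function.Injective (hpfVal p O E) := fun _ _ h => Subtype.ext h

/-- a point with values in `E` as a point with values in `𝒪_E`. -/
noncomputable def hpfPtInt (f : A →ₐ[O] E) : A →ₐ[O] ↥(lfInt p E) where
  toFun x := ⟨f x, hpf_point_mem_lfInt p O A E f x⟩
  map_one' := Subtype.ext (map_one f)
  map_mul' x y := Subtype.ext (map_mul f x y)
  map_zero' := Subtype.ext (map_zero f)
  map_add' x y := Subtype.ext (map_add f x y)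
  commutes' o := Subtype.ext (f.commutes o)

theorem hpfVal_comp_hpfPtInt (f : A →ₐ[O] E) : (hpfVal p O E).comp (hpfPtInt p O A E f) = f := by
  ext x; rfl

/-- `O → ℤ_p`. -/
noncomputable def hpfToZp : O →+* ℤ_[p] :=
  (algebraMap O ℚ_[p]).codRestrict (PadicInt.subring p) (fun o => HpfIntegral.norm_le_one o)

theorem hpf_algebraMap_int_eq (o : O) :
    algebraMap O ↥(lfInt p E) o = lroZqMap p E (hpfToZp p O o) := by
  apply Subtype.ext
  change algebraMap O E o = algebraMap ℚ_[p] E ((hpfToZp p O o : ℤ_[p]) : ℚ_[p])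
  rw [IsScalarTower.algebraMap_apply O ℚ_[p] E]
  rfl

end Pts

section Main

variable (p : ℕ) [Fact p.Prime] (O : Type) [CommRing O] [Algebra O ℚ_[p]] [HpfIntegral p O]
  (A : Type) [CommRing A] [Bialgebra O A] [Module.Finite O A] [Module.Projective O A]
  [Coalgebra.IsCocomm O A]
  (L : Type) [Field L] [Algebra ℚ_[p] L] [FiniteDimensional ℚ_[p] L]
  [Algebra O L] [IsScalarTower O ℚ_[p] L]
  (E : Type) [Field E] [Algebra ℚ_[p] E] [FiniteDimensional ℚ_[p] E]
  [Algebra O E] [IsScalarTower O ℚ_[p] E]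

/-- a ring hom `𝒪_L → 𝒪_E ⧸ 𝔪^N` is automatically `O`-linear. -/
theorem hpf_eta_commutes (N : ℕ)
    (η : ↥(lfInt p L) →+* ↥(lfInt p E) ⧸ maximalIdeal ↥(lfInt p E) ^ N) (o : O) :
    η (algebraMap O ↥(lfInt p L) o) =
      algebraMap O (↥(lfInt p E) ⧸ maximalIdeal ↥(lfInt p E) ^ N) o := by
  rw [hpf_algebraMap_int_eq]
  have hN : ((p : ℕ) : ↥(lfInt p E) ⧸ maximalIdeal ↥(lfInt p E) ^ N) ^ N = 0 := by
    rw [← map_natCast (Ideal.Quotient.mk (maximalIdeal ↥(lfInt p E) ^ N)), ← map_pow,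
      Ideal.Quotient.eq_zero_iff_mem]
    exact Ideal.pow_mem_pow (lro_natCast_prime_mem_maximalIdeal p E) N
  have h1 := hpf_ringHom_padicInt_ext p N hN (η.comp (lroZqMap p L))
    ((Ideal.Quotient.mk (maximalIdeal ↥(lfInt p E) ^ N)).comp (lroZqMap p E))
  have h2 := congrArg (fun φ : ℤ_[p] →+* _ => φ (hpfToZp p O o)) h1
  simp only [RingHom.comp_apply] at h2
  rw [h2, ← hpf_algebraMap_int_eq]
  rfl

/-- `η` as an `O`-algebra hom. -/
noncomputable def hpfEtaAlg (N : ℕ)
    (η : ↥(lfInt p L) →+* ↥(lfInt p E) ⧸ maximalIdeal ↥(lfInt p E) ^ N) :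
    ↥(lfInt p L) →ₐ[O] ↥(lfInt p E) ⧸ maximalIdeal ↥(lfInt p E) ^ N :=
  { η with commutes' := hpf_eta_commutes p O L E N η }

/-- integral points of `L` have `p`-th convolution power one. -/
theorem hpf_ptInt_pow (hS3 : ∀ f : WithConv (A →ₐ[O] L), f ^ p = 1) (u : A →ₐ[O] L) :
    (toConv (hpfPtInt p O A L u).toLinearMap : WithConv (A →ₗ[O] ↥(lfInt p L))) ^ p = 1 := by
  have h1 : (toConv u.toLinearMap : WithConv (A →ₗ[O] L)) ^ p = 1 := by
    have := AlgHom.toLinearMap_convPow (toConv u) p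
    rw [hS3 (toConv u)] at this
    rw [← this]
    rfl
  have hinj : Function.Injective (hpfPost (A := A) (hpfVal p O L)) := by
    intro f g hfg
    apply WithConv.ext
    ext x
    have := congrArg (fun φ => φ.ofConv x) hfg
    exact this
  apply hinj
  rw [map_pow, map_one]
  have h2 : hpfPost (A := A) (hpfVal p O L) (toConv (hpfPtInt p O A L u).toLinearMap) =
      toConv u.toLinearMap := by
    apply WithConv.ext
    ext x
    rfl
  rw [h2, h1]

/-- **the counting step.** -/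
theorem hpf_card_le
    (hS3 : ∀ f : WithConv (A →ₐ[O] L), f ^ p = 1)
    (a : ℕ) (ha : lfRamIdx p ℚ_[p] E < (p - 1) * a)
    (η : ↥(lfInt p L) →+*
      ↥(lfInt p E) ⧸ maximalIdeal ↥(lfInt p E) ^ (a + lfRamIdx p ℚ_[p] E)) :
    Nat.card (A →ₐ[O] L) ≤ Nat.card (A →ₐ[O] E) := by
  classical
  have hp : p.Prime := Fact.out
  have hlift : ∀ u : A →ₐ[O] L, ∃ u' : A →ₐ[O] ↥(lfInt p E),
      ∀ x, Ideal.Quotient.mk (maximalIdeal ↥(lfInt p E) ^ a) (u' x) =
        Ideal.Quotient.factor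
          (Ideal.pow_le_pow_right (Nat.le_add_right a (lfRamIdx p ℚ_[p] E)))
          (η (hpfPtInt p O A L u x)) := by
    intro u
    have hub : (toConv ((hpfEtaAlg p O L E _ η).comp (hpfPtInt p O A L u)).toLinearMap :
        WithConv (A →ₗ[O] ↥(lfInt p E) ⧸ maximalIdeal ↥(lfInt p E) ^
          (a + lfRamIdx p ℚ_[p] E))) ^ p = 1 := by
      have h1 := hpf_ptInt_pow p O A L hS3 u
      have h2 := congrArg (hpfPost (A := A) (hpfEtaAlg p O L E _ η)) h1
      rw [map_pow, map_one] at h2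
      exact h2
    obtain ⟨u', -, hu'⟩ := hpf_conv_lift hp (hpfFiltLf p E) ha
      ((hpfEtaAlg p O L E _ η).comp (hpfPtInt p O A L u)) hub
    exact ⟨u', hu'⟩
  choose lift hliftspec using hlift
  obtain ⟨a', ha', hval⟩ := hpf_val p L E a ha η
  have hinj : Function.Injective (fun u : A →ₐ[O] L => (hpfVal p O E).comp (lift u)) := by
    intro u₁ u₂ h12
    have h12' : lift u₁ = lift u₂ := by
      ext x
      exact congrArg (fun f : A →ₐ[O] E => f x) h12
    have hcong : ∀ x, (hpfPtInt p O A L u₁ x) - (hpfPtInt p O A L u₂ x) ∈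
        maximalIdeal ↥(lfInt p L) ^ a' := by
      intro x
      apply hval
      rw [map_sub, map_sub, ← hliftspec u₁ x, ← hliftspec u₂ x, h12', sub_self]
    have heq : (toConv (hpfPtInt p O A L u₁).toLinearMap :
        WithConv (A →ₗ[O] ↥(lfInt p L))) = toConv (hpfPtInt p O A L u₂).toLinearMap :=
      hpf_conv_inj hp (hpfFiltLf p L) ha' _ _ (hpf_ptInt_pow p O A L hS3 u₁)
        (hpf_ptInt_pow p O A L hS3 u₂) hcong
    ext x
    exact congrArg (fun f : WithConv (A →ₗ[O] ↥(lfInt p L)) => ((f.ofConv x : ↥(lfInt p L)) : L)) heq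
  have : Finite (A →ₐ[O] E) := hpf_finite_points O A E
  exact Nat.card_le_card_of_injective _ hinj

end Main

end Fermat.Agent.S56
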